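import Mathlib

/-!
# Bounded Lipschitz real functions on a set

A tiny calculus: `BLipOn S f` says that `f : E → ℝ` is bounded and Lipschitz on `S`.  The class
is closed under sums, products, composition with Lipschitz functions of one real variable and
inverses of functions bounded below.
-/

namespace Fermat.Agent.Lib.SmoothCount

variable {E : Type*} [SeminormedAddCommGroup E]

/-- `f` is bounded and Lipschitz on the set `S`. -/
def BLipOn (S : Set E) (f : E → ℝ) : Prop :=
  ∃ M L : ℝ, 0 ≤ M ∧ 0 ≤ L ∧ (∀ x ∈ S, |f x| ≤ M) ∧ ∀ x ∈ S, ∀ y ∈ S, |f x - f y| ≤ L * ‖x - y‖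

namespace BLipOn

variable {S T : Set E} {f g : E → ℝ}

theorem const (c : ℝ) : BLipOn S (fun _ => c) :=
  ⟨|c|, 0, abs_nonneg c, le_rfl, fun _ _ => le_rfl, fun _ _ _ _ => by simp⟩

theorem congr (hf : BLipOn S f) (h : ∀ x ∈ S, f x = g x) : BLipOn S g := by
  obtain ⟨M, L, hM, hL, hb, hl⟩ := hf
  refine ⟨M, L, hM, hL, fun x hx => by rw [← h x hx]; exact hb x hx, fun x hx y hy => ?_⟩
  rw [← h x hx, ← h y hy]; exact hl x hx y hy

theorem mono (hf : BLipOn S f) (hT : T ⊆ S) : BLipOn T f := by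
  obtain ⟨M, L, hM, hL, hb, hl⟩ := hf
  exact ⟨M, L, hM, hL, fun x hx => hb x (hT hx), fun x hx y hy => hl x (hT hx) y (hT hy)⟩

theorem add (hf : BLipOn S f) (hg : BLipOn S g) : BLipOn S (fun x => f x + g x) := by
  obtain ⟨M, L, hM, hL, hb, hl⟩ := hf
  obtain ⟨M', L', hM', hL', hb', hl'⟩ := hg
  refine ⟨M + M', L + L', by positivity, by positivity, fun x hx => ?_, fun x hx y hy => ?_⟩
  · exact (abs_add_le _ _).trans (add_le_add (hb x hx) (hb' x hx))
  · have : f x + g x - (f y + g y) = (f x - f y) + (g x - g y) := by ring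
    rw [this, add_mul]
    exact (abs_add_le _ _).trans (add_le_add (hl x hx y hy) (hl' x hx y hy))

theorem neg (hf : BLipOn S f) : BLipOn S (fun x => -f x) := by
  obtain ⟨M, L, hM, hL, hb, hl⟩ := hf
  refine ⟨M, L, hM, hL, fun x hx => by rw [abs_neg]; exact hb x hx, fun x hx y hy => ?_⟩
  have : -f x - -f y = -(f x - f y) := by ring
  rw [this, abs_neg]; exact hl x hx y hy

theorem sub (hf : BLipOn S f) (hg : BLipOn S g) : BLipOn S (fun x => f x - g x) := by
  simpa [sub_eq_add_neg] using hf.add hg.neg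

theorem mul (hf : BLipOn S f) (hg : BLipOn S g) : BLipOn S (fun x => f x * g x) := by
  obtain ⟨M, L, hM, hL, hb, hl⟩ := hf
  obtain ⟨M', L', hM', hL', hb', hl'⟩ := hg
  refine ⟨M * M', M * L' + M' * L, by positivity, by positivity, fun x hx => ?_,
    fun x hx y hy => ?_⟩
  · rw [abs_mul]
    exact mul_le_mul (hb x hx) (hb' x hx) (abs_nonneg _) hM
  · have e : f x * g x - f y * g y = f x * (g x - g y) + g y * (f x - f y) := by ring
    rw [e, add_mul]
    refine (abs_add_le _ _).trans (add_le_add ?_ ?_)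
    · rw [abs_mul, mul_assoc]
      exact mul_le_mul (hb x hx) (hl' x hx y hy) (abs_nonneg _) hM
    · rw [abs_mul, mul_assoc]
      exact mul_le_mul (hb' y hy) (hl x hx y hy) (abs_nonneg _) hM'

theorem comp_lipschitz (hf : BLipOn S f) {φ : ℝ → ℝ} {c : ℝ} (hc : 0 ≤ c)
    (hφ : ∀ a b, |φ a - φ b| ≤ c * |a - b|) : BLipOn S (fun x => φ (f x)) := by
  obtain ⟨M, L, hM, hL, hb, hl⟩ := hf
  refine ⟨|φ 0| + c * M, c * L, by positivity, by positivity, fun x hx => ?_,
    fun x hx y hy => ?_⟩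
  · have h1 : |φ (f x)| ≤ |φ 0| + |φ (f x) - φ 0| := by
      have := abs_add_le (φ 0) (φ (f x) - φ 0)
      simpa using this
    have h2 : |φ (f x) - φ 0| ≤ c * M := by
      refine (hφ _ _).trans ?_
      rw [sub_zero]
      exact mul_le_mul_of_nonneg_left (hb x hx) hc
    linarith
  · refine (hφ _ _).trans ?_
    rw [mul_assoc]
    exact mul_le_mul_of_nonneg_left (hl x hx y hy) hc

theorem max_const (hf : BLipOn S f) (c : ℝ) : BLipOn S (fun x => max (f x) c) := by
  refine hf.comp_lipschitz (φ := fun a => max a c) (c := 1) zero_le_one fun a b => ?_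
  rw [one_mul]
  exact abs_max_sub_max_le_abs a b c

theorem inv (hf : BLipOn S f) {δ : ℝ} (hδ : 0 < δ) (h : ∀ x ∈ S, δ ≤ f x) :
    BLipOn S (fun x => (f x)⁻¹) := by
  obtain ⟨M, L, hM, hL, hb, hl⟩ := hf
  refine ⟨δ⁻¹, L / δ ^ 2, by positivity, by positivity, fun x hx => ?_, fun x hx y hy => ?_⟩
  · have hx0 : 0 < f x := hδ.trans_le (h x hx)
    rw [abs_of_pos (inv_pos.2 hx0)]
    exact inv_anti₀ hδ (h x hx)
  · have hx0 : 0 < f x := hδ.trans_le (h x hx)
    have hy0 : 0 < f y := hδ.trans_le (h y hy)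
    have e : (f x)⁻¹ - (f y)⁻¹ = (f y - f x) / (f x * f y) := by
      field_simp
    rw [e, abs_div, abs_of_pos (mul_pos hx0 hy0), div_mul_eq_mul_div, abs_sub_comm]
    have h1 : δ ^ 2 ≤ f x * f y := by
      rw [sq]; exact mul_le_mul (h x hx) (h y hy) hδ.le hx0.le
    have h2 := hl x hx y hy
    have h3 : 0 ≤ L * ‖x - y‖ := by positivity
    calc |f x - f y| / (f x * f y) ≤ (L * ‖x - y‖) / (f x * f y) := by gcongr
      _ ≤ (L * ‖x - y‖) / δ ^ 2 := by gcongr

theorem div (hf : BLipOn S f) (hg : BLipOn S g) {δ : ℝ} (hδ : 0 < δ) (h : ∀ x ∈ S, δ ≤ g x) :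
    BLipOn S (fun x => f x / g x) := by
  simpa [div_eq_mul_inv] using hf.mul (hg.inv hδ h)

theorem finset_prod {ι : Type*} (s : Finset ι) (F : ι → E → ℝ) (h : ∀ i ∈ s, BLipOn S (F i)) :
    BLipOn S (fun x => ∏ i ∈ s, F i x) := by
  classical
  induction s using Finset.induction_on with
  | empty => simpa using const (S := S) 1
  | insert a s ha ih =>
    have h1 := h a (Finset.mem_insert_self a s)
    have h2 := ih fun i hi => h i (Finset.mem_insert_of_mem hi)
    simpa [Finset.prod_insert ha] using h1.mul h2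

theorem finset_sum {ι : Type*} (s : Finset ι) (F : ι → E → ℝ) (h : ∀ i ∈ s, BLipOn S (F i)) :
    BLipOn S (fun x => ∑ i ∈ s, F i x) := by
  classical
  induction s using Finset.induction_on with
  | empty => simpa using const (S := S) 0
  | insert a s ha ih =>
    have h1 := h a (Finset.mem_insert_self a s)
    have h2 := ih fun i hi => h i (Finset.mem_insert_of_mem hi)
    simpa [Finset.sum_insert ha] using h1.add h2

theorem pow (hf : BLipOn S f) (n : ℕ) : BLipOn S (fun x => f x ^ n) := by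
  induction n with
  | zero => simpa using const (S := S) 1
  | succ n ih => simpa [pow_succ] using ih.mul hf

theorem bound (hf : BLipOn S f) : ∃ M : ℝ, 0 ≤ M ∧ ∀ x ∈ S, |f x| ≤ M := by
  obtain ⟨M, L, hM, hL, hb, hl⟩ := hf
  exact ⟨M, hM, hb⟩

theorem lipschitz (hf : BLipOn S f) :
    ∃ L : ℝ, 0 ≤ L ∧ ∀ x ∈ S, ∀ y ∈ S, |f x - f y| ≤ L * ‖x - y‖ := by
  obtain ⟨M, L, hM, hL, hb, hl⟩ := hf
  exact ⟨L, hL, hl⟩

end BLipOn

end Fermat.Agent.Lib.SmoothCount
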