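import Mathlib

/-!
# Smooth fundamental domains for the unit group: definitions

`IsUnitWeight K W` says that `W : mixedSpace K → ℝ` is a "smooth fundamental domain" for the
action of the units of `𝓞 K` on the mixed space: a degree-`0` homogeneous weight, supported in a
cone where the mixed norm is comparable to the `n`-th power of the sup norm, Lipschitz away
from `0`, and summing to `1` along every unit orbit.  `gfun K W s` is the associated
"Epstein kernel" `W(x) * max(N(x), 1)^(-s)`.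
-/

namespace Fermat.Agent.Lib.SmoothCount

open NumberField NumberField.mixedEmbedding Module

open scoped Classical

variable (K : Type*) [Field K] [NumberField K]

/-- A "smooth fundamental domain" for the action of the units on the mixed space. -/
structure IsUnitWeight (W : mixedSpace K → ℝ) : Prop where
  nonneg : ∀ x, 0 ≤ W x
  le_one : ∀ x, W x ≤ 1
  zero : W 0 = 0
  smul : ∀ c : ℝ, 0 < c → ∀ x, W (c • x) = W x
  cone : ∃ B : ℝ, 1 ≤ B ∧ ∀ x, W x ≠ 0 → ‖x‖ ^ finrank ℚ K ≤ B * mixedEmbedding.norm x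
  lip : ∃ L : ℝ, 0 ≤ L ∧ ∀ x y, 1 / 2 ≤ ‖x‖ → ‖x‖ ≤ 2 → 1 / 2 ≤ ‖y‖ → ‖y‖ ≤ 2 →
    |W x - W y| ≤ L * ‖x - y‖
  unit_sum : ∀ x, mixedEmbedding.norm x ≠ 0 → HasSum (fun u : (𝓞 K)ˣ => W (u • x)) 1

/-- The kernel `W(x) * max(N(x), 1)^(-s)`. -/
noncomputable def gfun (W : mixedSpace K → ℝ) (s : ℝ) (x : mixedSpace K) : ℝ :=
  W x * (max (mixedEmbedding.norm x) 1) ^ (-s)

end Fermat.Agent.Lib.SmoothCount
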