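import Mathlib

/-!
# Lattice sums over the ring of integers in the mixed space

For a number field `K` of degree `n`, the image of `𝓞 K` in the mixed space is a full
`ℤ`-lattice.  We transport Mathlib's lattice `p`-series estimates
(`ZLattice.summable_norm_rpow`, `ZLattice.tsum_norm_rpow_le`) to sums indexed by `𝓞 K`:

* `summable_norm_rpow_int`: `∑_{γ ∈ 𝓞 K} ‖ι γ‖ ^ (-r)` converges for `r > n`;
* `exists_tsum_norm_rpow_int_le`: `∑_{γ ∈ 𝓞 K} ‖ι γ‖ ^ (-n s) ≤ C / (s - 1)` on `(1, 2]`;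
* `finite_norm_int_le`: only finitely many integers have `‖ι γ‖ ≤ R`.
-/

namespace Fermat.Agent.Lib.SmoothCount

open NumberField NumberField.mixedEmbedding Module

open scoped nonZeroDivisors Classical

namespace LatticeSum

/-! ### An elementary bound for the `p`-series -/

/-- `ε k^(-1-ε) ≤ (k-1)^(-ε) - k^(-ε)` for `k > 1`. -/
theorem rpow_telescope {ε : ℝ} (hε : 0 < ε) {k : ℝ} (hk : 1 < k) :
    ε * k ^ (-1 - ε) ≤ (k - 1) ^ (-ε) - k ^ (-ε) := by
  have hk0 : 0 < k := by linarith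
  have hk1 : 0 < k - 1 := by linarith
  -- `(k / (k - 1)) ^ ε ≥ 1 + ε / k`
  have hlog : 1 / k ≤ Real.log (k / (k - 1)) := by
    have h := Real.one_sub_inv_le_log_of_pos (div_pos hk0 hk1)
    have e : 1 - (k / (k - 1))⁻¹ = 1 / k := by
      field_simp
      ring
    rwa [e] at h
  have hexp : 1 + ε / k ≤ (k / (k - 1)) ^ ε := by
    rw [Real.rpow_def_of_pos (div_pos hk0 hk1)]
    have h1 := Real.add_one_le_exp (Real.log (k / (k - 1)) * ε)
    have h2 : ε / k ≤ Real.log (k / (k - 1)) * ε := by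
      have := mul_le_mul_of_nonneg_right hlog hε.le
      calc ε / k = 1 / k * ε := by ring
        _ ≤ _ := this
    linarith
  have e1 : (k - 1) ^ (-ε) = k ^ (-ε) * (k / (k - 1)) ^ ε := by
    rw [Real.div_rpow hk0.le hk1.le, Real.rpow_neg hk0.le, Real.rpow_neg hk1.le]
    have := (Real.rpow_pos_of_pos hk0 ε).ne'
    field_simp
  have e2 : k ^ (-1 - ε) = k ^ (-ε) / k := by
    rw [show -1 - ε = -ε - 1 by ring, Real.rpow_sub_one hk0.ne']
  have hpos : 0 < k ^ (-ε) := Real.rpow_pos_of_pos hk0 _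
  rw [e1, e2]
  have : k ^ (-ε) * (1 + ε / k) ≤ k ^ (-ε) * (k / (k - 1)) ^ ε :=
    mul_le_mul_of_nonneg_left hexp hpos.le
  calc ε * (k ^ (-ε) / k) = k ^ (-ε) * (1 + ε / k) - k ^ (-ε) := by ring
    _ ≤ k ^ (-ε) * (k / (k - 1)) ^ ε - k ^ (-ε) := by linarith

/-- Partial sums of the `p`-series with exponent `-1-ε`. -/
theorem sum_range_rpow_le {ε : ℝ} (hε : 0 < ε) (N : ℕ) :
    ∑ k ∈ Finset.range (N + 2), (k : ℝ) ^ (-1 - ε) ≤ 1 + (1 - ((N : ℝ) + 1) ^ (-ε)) / ε := by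
  induction N with
  | zero =>
    have h0 : (0 : ℝ) ^ (-1 - ε) = 0 := Real.zero_rpow (by linarith)
    simp [Finset.sum_range_succ, h0]
  | succ N ih =>
    rw [Finset.sum_range_succ]
    have hk : (1 : ℝ) < ((N + 2 : ℕ) : ℝ) := by
      push_cast
      have : (0 : ℝ) ≤ N := Nat.cast_nonneg N
      linarith
    have h := rpow_telescope hε hk
    have e : (((N + 2 : ℕ) : ℝ) - 1) = (N : ℝ) + 1 := by push_cast; ring
    rw [e] at h
    have e' : (((N + 1 : ℕ) : ℝ) + 1) = ((N + 2 : ℕ) : ℝ) := by push_cast; ring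
    rw [e']
    have h' : ((N + 2 : ℕ) : ℝ) ^ (-1 - ε) ≤
        (((N : ℝ) + 1) ^ (-ε) - ((N + 2 : ℕ) : ℝ) ^ (-ε)) / ε := by
      rw [le_div_iff₀ hε, mul_comm]
      exact h
    calc ∑ k ∈ Finset.range (N + 2), (k : ℝ) ^ (-1 - ε) + ((N + 2 : ℕ) : ℝ) ^ (-1 - ε)
        ≤ (1 + (1 - ((N : ℝ) + 1) ^ (-ε)) / ε) +
          (((N : ℝ) + 1) ^ (-ε) - ((N + 2 : ℕ) : ℝ) ^ (-ε)) / ε := add_le_add ih h'
      _ = 1 + (1 - ((N + 2 : ℕ) : ℝ) ^ (-ε)) / ε := by ring

/-- `∑_{k ≥ 1} k^(-1-ε) ≤ 1 + 1/ε`. -/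
theorem tsum_nat_rpow_le {ε : ℝ} (hε : 0 < ε) :
    ∑' k : ℕ, (k : ℝ) ^ (-1 - ε) ≤ 1 + 1 / ε := by
  apply Real.tsum_le_of_sum_range_le (fun k => Real.rpow_nonneg (Nat.cast_nonneg k) _)
  intro N
  have hmono : ∑ k ∈ Finset.range N, (k : ℝ) ^ (-1 - ε) ≤
      ∑ k ∈ Finset.range (N + 2), (k : ℝ) ^ (-1 - ε) :=
    Finset.sum_le_sum_of_subset_of_nonneg
      (Finset.range_mono (by omega)) fun k _ _ => Real.rpow_nonneg (Nat.cast_nonneg k) _
  have h := sum_range_rpow_le hε N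
  have hpos : 0 ≤ ((N : ℝ) + 1) ^ (-ε) := Real.rpow_nonneg (by positivity) _
  have : (1 - ((N : ℝ) + 1) ^ (-ε)) / ε ≤ 1 / ε := by
    apply div_le_div_of_nonneg_right _ hε.le
    linarith
  linarith

/-! ### Transport to `𝓞 K` -/

variable (K : Type*) [Field K] [NumberField K]

/-- The embedding of `𝓞 K` into the integer lattice of the mixed space. -/
noncomputable def toLattice (γ : 𝓞 K) : mixedEmbedding.integerLattice K :=
  ⟨mixedEmbedding K (γ : K), ⟨γ, rfl⟩⟩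

theorem toLattice_injective : Function.Injective (toLattice K) := by
  intro a b h
  have h1 : mixedEmbedding K (a : K) = mixedEmbedding K (b : K) := congrArg Subtype.val h
  exact RingOfIntegers.ext (mixedEmbedding_injective K h1)

theorem norm_toLattice (γ : 𝓞 K) : ‖toLattice K γ‖ = ‖mixedEmbedding K (γ : K)‖ := rfl

theorem finrank_integerLattice :
    finrank ℤ (mixedEmbedding.integerLattice K) = finrank ℚ K := by
  have h1 : finrank ℤ (mixedEmbedding.integerLattice K) = finrank ℝ (mixedSpace K) :=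
    ZLattice.rank ℝ _
  rw [h1]
  exact mixedEmbedding.finrank K

/-- Summability over the integer lattice, in the form used below. -/
theorem summable_lattice (r : ℝ) (hr : (finrank ℚ K : ℝ) < r) :
    Summable fun z : mixedEmbedding.integerLattice K => ‖z‖ ^ (-r) := by
  have hr' : -r < -(finrank ℤ (mixedEmbedding.integerLattice K) : ℝ) := by
    rw [finrank_integerLattice]; linarith
  exact ZLattice.summable_norm_rpow (mixedEmbedding.integerLattice K) (-r) hr'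

theorem tsum_int_le_tsum_lattice (r : ℝ) (hr : (finrank ℚ K : ℝ) < r) :
    ∑' γ : 𝓞 K, ‖mixedEmbedding K (γ : K)‖ ^ (-r) ≤
      ∑' z : mixedEmbedding.integerLattice K, ‖z‖ ^ (-r) := by
  have h := tsum_comp_le_tsum_of_inj (summable_lattice K r hr)
    (fun z => Real.rpow_nonneg (norm_nonneg z) _) (toLattice_injective K)
  refine le_trans (le_of_eq ?_) h
  refine tsum_congr fun γ => ?_
  rw [Function.comp_apply, norm_toLattice]

/-- Mathlib's uniform lattice bound, with the rank rewritten as `[K : ℚ]`. -/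
theorem exists_lattice_bound : ∃ A : ℝ, 0 < A ∧ ∀ r : ℝ, (finrank ℚ K : ℝ) < r →
    ∑' z : mixedEmbedding.integerLattice K, ‖z‖ ^ (-r) ≤
      A ^ (-r) * ∑' k : ℕ, (k : ℝ) ^ ((finrank ℚ K : ℝ) - 1 + -r) := by
  refine ⟨ZLattice.tsumNormRPowBound (mixedEmbedding.integerLattice K),
    ZLattice.tsumNormRPowBound_pos _, ?_⟩
  intro r hr
  have hr' : -r < -(finrank ℤ (mixedEmbedding.integerLattice K) : ℝ) := by
    rw [finrank_integerLattice]; linarith
  have h := ZLattice.tsum_norm_rpow_le (mixedEmbedding.integerLattice K) (-r) hr'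
  rw [finrank_integerLattice] at h
  exact h

/-- The purely real part of the final estimate. -/
theorem real_bound {n A : ℝ} (hn : 1 ≤ n) (hA : 0 < A) {s : ℝ} (hs1 : 1 < s) (hs2 : s ≤ 2) :
    A ^ (-(n * s)) * ∑' k : ℕ, (k : ℝ) ^ (n - 1 + -(n * s)) ≤
      2 * (1 + A ^ (-(2 * n))) / (s - 1) := by
  have hs0 : 0 < s - 1 := by linarith
  have hε : 0 < n * (s - 1) := by positivity
  have h3 : ∑' k : ℕ, (k : ℝ) ^ (n - 1 + -(n * s)) ≤ 1 + 1 / (n * (s - 1)) := by
    have e : n - 1 + -(n * s) = -1 - n * (s - 1) := by ring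
    rw [e]
    exact tsum_nat_rpow_le hε
  have h4 : 1 + 1 / (n * (s - 1)) ≤ 2 / (s - 1) := by
    have ha : 1 ≤ 1 / (s - 1) := by
      rw [le_div_iff₀ hs0]; linarith
    have hb : 1 / (n * (s - 1)) ≤ 1 / (s - 1) := by
      apply one_div_le_one_div_of_le hs0
      nlinarith
    have : 2 / (s - 1) = 1 / (s - 1) + 1 / (s - 1) := by ring
    linarith
  have h5 : A ^ (-(n * s)) ≤ 1 + A ^ (-(2 * n)) := by
    have hp : 0 < A ^ (-(2 * n)) := Real.rpow_pos_of_pos hA _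
    rcases le_or_gt 1 A with hA1 | hA1
    · have : A ^ (-(n * s)) ≤ 1 :=
        Real.rpow_le_one_of_one_le_of_nonpos hA1 (by nlinarith)
      linarith
    · have : A ^ (-(n * s)) ≤ A ^ (-(2 * n)) :=
        Real.rpow_le_rpow_of_exponent_ge hA hA1.le (by nlinarith)
      linarith
  have hps : 0 ≤ ∑' k : ℕ, (k : ℝ) ^ (n - 1 + -(n * s)) :=
    tsum_nonneg fun k => Real.rpow_nonneg (Nat.cast_nonneg k) _
  have hpA : 0 ≤ 1 + A ^ (-(2 * n)) := by
    have := Real.rpow_nonneg hA.le (-(2 * n))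
    linarith
  calc A ^ (-(n * s)) * ∑' k : ℕ, (k : ℝ) ^ (n - 1 + -(n * s))
      ≤ (1 + A ^ (-(2 * n))) * (2 / (s - 1)) := mul_le_mul h5 (h3.trans h4) hps hpA
    _ = 2 * (1 + A ^ (-(2 * n))) / (s - 1) := by ring

end LatticeSum

open LatticeSum

variable (K : Type*) [Field K] [NumberField K]

/-- `∑_{γ ∈ 𝓞 K} ‖ι γ‖ ^ (-r)` converges for `r > [K : ℚ]`. -/
theorem summable_norm_rpow_int (r : ℝ) (hr : (finrank ℚ K : ℝ) < r) :
    Summable (fun γ : 𝓞 K => ‖mixedEmbedding K (γ : K)‖ ^ (-r)) := by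
  have h' := (summable_lattice K r hr).comp_injective (toLattice_injective K)
  refine h'.congr ?_
  intro γ
  rw [Function.comp_apply, norm_toLattice]

/-- Only finitely many integers have bounded image in the mixed space. -/
theorem finite_norm_int_le (R : ℝ) : {γ : 𝓞 K | ‖mixedEmbedding K (γ : K)‖ ≤ R}.Finite := by
  have h : (Metric.closedBall (0 : mixedSpace K) R ∩
      (Submodule.span ℤ (Set.range (latticeBasis K)) : Set (mixedSpace K))).Finite :=
    ZSpan.setFinite_inter (latticeBasis K) Metric.isBounded_closedBall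
  have hinj : Function.Injective (fun γ : 𝓞 K => mixedEmbedding K (γ : K)) := by
    intro a b hab
    exact RingOfIntegers.ext (mixedEmbedding_injective K hab)
  refine (h.preimage hinj.injOn).subset ?_
  intro γ hγ
  refine ⟨?_, ?_⟩
  · simpa using hγ
  · have : mixedEmbedding K (γ : K) ∈ mixedEmbedding.integerLattice K := ⟨γ, rfl⟩
    rw [← span_latticeBasis] at this
    exact this

/-- `∑_{γ ∈ 𝓞 K} ‖ι γ‖ ^ (-n s) ≤ C / (s - 1)` for `s ∈ (1, 2]`, `n = [K : ℚ]`. -/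
theorem exists_tsum_norm_rpow_int_le : ∃ C : ℝ, 0 ≤ C ∧ ∀ s : ℝ, 1 < s → s ≤ 2 →
    ∑' γ : 𝓞 K, ‖mixedEmbedding K (γ : K)‖ ^ (-((finrank ℚ K : ℝ) * s)) ≤ C / (s - 1) := by
  have hn0 : 0 < finrank ℚ K := finrank_pos
  have hn1 : (1 : ℝ) ≤ (finrank ℚ K : ℝ) := by exact_mod_cast hn0
  obtain ⟨A, hA0, hA⟩ := exists_lattice_bound K
  have hC : 0 ≤ 2 * (1 + A ^ (-(2 * (finrank ℚ K : ℝ)))) := by
    have := Real.rpow_nonneg hA0.le (-(2 * (finrank ℚ K : ℝ)))
    linarith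
  refine ⟨2 * (1 + A ^ (-(2 * (finrank ℚ K : ℝ)))), hC, ?_⟩
  intro s hs1 hs2
  have hr : (finrank ℚ K : ℝ) < (finrank ℚ K : ℝ) * s := by nlinarith
  exact ((tsum_int_le_tsum_lattice K _ hr).trans (hA _ hr)).trans
    (real_bound hn1 hA0 hs1 hs2)

end Fermat.Agent.Lib.SmoothCount
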