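import Fermat.Agent.Lib.SmoothCount.Defs
import Fermat.Agent.Lib.SmoothCount.BLip

/-!
# The shift estimate for the kernel `gfun`

For a unit weight `W` the kernel `G_s(x) = W(x) * max(N(x),1)^(-s)` satisfies
`|G_s(x + λ) - G_s(x)| ≤ C * ‖x‖^(-(n+1))` for `‖x‖ ≥ R`, uniformly in `s ∈ [1,2]`
(homogeneity + Lipschitz continuity on an annulus), and `G_s(x) ≤ B^s * ‖x‖^(-n s)`.
-/

namespace Fermat.Agent.Lib.SmoothCount

open NumberField NumberField.mixedEmbedding NumberField.InfinitePlace Module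

open scoped Classical

variable (K : Type*) [Field K] [NumberField K]

theorem normAtPlace_le_norm (w : InfinitePlace K) (x : mixedSpace K) : normAtPlace w x ≤ ‖x‖ := by
  rw [norm_eq_sup'_normAtPlace]
  exact Finset.le_sup' (fun w => normAtPlace w x) (Finset.mem_univ w)

theorem exists_normAtPlace_eq_norm (x : mixedSpace K) : ∃ w, normAtPlace w x = ‖x‖ := by
  rw [norm_eq_sup'_normAtPlace]
  obtain ⟨w, -, hw⟩ := Finset.exists_mem_eq_sup' Finset.univ_nonempty (fun w => normAtPlace w x)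
  exact ⟨w, hw.symm⟩

theorem mixedNorm_le_norm_pow (x : mixedSpace K) :
    mixedEmbedding.norm x ≤ ‖x‖ ^ finrank ℚ K := by
  rw [mixedEmbedding.norm_apply, ← sum_mult_eq, ← Finset.prod_pow_eq_pow_sum]
  exact Finset.prod_le_prod (fun w _ => pow_nonneg (normAtPlace_nonneg w x) _)
    (fun w _ => pow_le_pow_left₀ (normAtPlace_nonneg w x) (normAtPlace_le_norm K w x) _)

theorem abs_normAtPlace_sub_le (w : InfinitePlace K) (x y : mixedSpace K) :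
    |normAtPlace w x - normAtPlace w y| ≤ ‖x - y‖ := by
  have h1 : normAtPlace w x ≤ normAtPlace w (x - y) + normAtPlace w y := by
    have := normAtPlace_add_le w (x - y) y
    rwa [sub_add_cancel] at this
  have h2 : normAtPlace w y ≤ normAtPlace w (y - x) + normAtPlace w x := by
    have := normAtPlace_add_le w (y - x) x
    rwa [sub_add_cancel] at this
  have h3 : normAtPlace w (y - x) = normAtPlace w (x - y) := by
    rw [← normAtPlace_neg, neg_sub]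
  have h4 := normAtPlace_le_norm K w (x - y)
  rw [abs_le]
  constructor <;> linarith

theorem bLipOn_normAtPlace (w : InfinitePlace K) (R : ℝ) :
    BLipOn {x : mixedSpace K | ‖x‖ ≤ R} (fun x => normAtPlace w x) := by
  refine ⟨max R 0, 1, le_max_right _ _, zero_le_one, fun x hx => ?_, fun x _ y _ => ?_⟩
  · rw [abs_of_nonneg (normAtPlace_nonneg w x)]
    exact (normAtPlace_le_norm K w x).trans (hx.trans (le_max_left _ _))
  · rw [one_mul]; exact abs_normAtPlace_sub_le K w x y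

theorem bLipOn_mixedNorm (R : ℝ) :
    BLipOn {x : mixedSpace K | ‖x‖ ≤ R} (fun x => mixedEmbedding.norm x) := by
  have : (fun x : mixedSpace K => mixedEmbedding.norm x)
      = fun x => ∏ w : InfinitePlace K, (normAtPlace w x) ^ (mult w) := by
    funext x; exact mixedEmbedding.norm_apply x
  rw [this]
  exact BLipOn.finset_prod _ _ fun w _ => (bLipOn_normAtPlace K w R).pow _

/-- `t ↦ max(t, t₀)^(-s)` is Lipschitz, uniformly for `s ∈ [1, 2]`. -/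
theorem abs_rpow_neg_sub_le {t₀ : ℝ} (ht₀ : 0 < t₀) (ht₁ : t₀ ≤ 1) {s : ℝ} (hs1 : 1 ≤ s)
    (hs2 : s ≤ 2) (a b : ℝ) :
    |(max a t₀) ^ (-s) - (max b t₀) ^ (-s)| ≤ 2 * t₀⁻¹ ^ 3 * |a - b| := by
  wlog hab : b ≤ a generalizing a b
  · have := this b a (le_of_not_ge hab)
    rwa [abs_sub_comm, abs_sub_comm b a] at this
  set a' := max a t₀ with ha'
  set b' := max b t₀ with hb'
  have hb0 : t₀ ≤ b' := le_max_right _ _
  have hb'pos : 0 < b' := ht₀.trans_le hb0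
  have hba : b' ≤ a' := max_le_max hab le_rfl
  have ha'pos : 0 < a' := hb'pos.trans_le hba
  have hdiff : a' - b' ≤ |a - b| := by
    have := abs_max_sub_max_le_abs a b t₀
    exact (le_abs_self _).trans this
  have hanti : a' ^ (-s) ≤ b' ^ (-s) :=
    Real.rpow_le_rpow_of_nonpos hb'pos hba (by linarith)
  rw [abs_sub_comm, abs_of_nonneg (sub_nonneg.2 hanti)]
  -- Bernoulli
  have hu : -1 ≤ b' / a' - 1 := by
    have : 0 ≤ b' / a' := by positivity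
    linarith
  have hbern := one_add_mul_self_le_rpow_one_add hu hs1
  rw [add_sub_cancel] at hbern
  have hquot : (b' / a') ^ s = b' ^ s / a' ^ s := Real.div_rpow hb'pos.le ha'pos.le s
  have hbs : 0 < b' ^ s := Real.rpow_pos_of_pos hb'pos s
  have has : 0 < a' ^ s := Real.rpow_pos_of_pos ha'pos s
  have e1 : b' ^ (-s) - a' ^ (-s) = b' ^ (-s) * (1 - (b' / a') ^ s) := by
    rw [hquot, Real.rpow_neg hb'pos.le, Real.rpow_neg ha'pos.le]
    field_simp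
  have h1 : 1 - (b' / a') ^ s ≤ s * ((a' - b') / a') := by
    have : s * ((a' - b') / a') = -(s * (b' / a' - 1)) := by
      field_simp; ring
    rw [this]; linarith
  have hb's : b' ^ (-s) ≤ t₀⁻¹ ^ 2 := by
    have h2 : b' ^ (-s) ≤ t₀ ^ (-s) := Real.rpow_le_rpow_of_nonpos ht₀ hb0 (by linarith)
    have h3 : t₀ ^ (-s) ≤ t₀ ^ (-(2 : ℝ)) :=
      Real.rpow_le_rpow_of_exponent_ge ht₀ ht₁ (by linarith)
    have h4 : t₀ ^ (-(2 : ℝ)) = t₀⁻¹ ^ 2 := by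
      rw [Real.rpow_neg ht₀.le, ← Real.inv_rpow ht₀.le]
      exact_mod_cast Real.rpow_natCast t₀⁻¹ 2
    linarith
  have h5 : (a' - b') / a' ≤ t₀⁻¹ * |a - b| := by
    rw [div_eq_inv_mul]
    have h6 : a'⁻¹ ≤ t₀⁻¹ := inv_anti₀ ht₀ (hb0.trans hba)
    have h7 : 0 ≤ a' - b' := sub_nonneg.2 hba
    exact mul_le_mul h6 hdiff h7 (inv_pos.2 ht₀).le
  have h8 : 0 ≤ b' ^ (-s) := (Real.rpow_pos_of_pos hb'pos _).le
  have h9 : 0 ≤ (a' - b') / a' := div_nonneg (sub_nonneg.2 hba) ha'pos.le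
  calc b' ^ (-s) - a' ^ (-s) = b' ^ (-s) * (1 - (b' / a') ^ s) := e1
    _ ≤ b' ^ (-s) * (s * ((a' - b') / a')) := by gcongr
    _ ≤ t₀⁻¹ ^ 2 * (2 * (t₀⁻¹ * |a - b|)) := by
        have : s * ((a' - b') / a') ≤ 2 * (t₀⁻¹ * |a - b|) := by
          exact mul_le_mul hs2 h5 h9 (by norm_num)
        have h10 : 0 ≤ s * ((a' - b') / a') := by positivity
        exact mul_le_mul hb's this h10 (by positivity)
    _ = 2 * t₀⁻¹ ^ 3 * |a - b| := by ring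

theorem rpow_neg_max_le {t₀ : ℝ} (ht₀ : 0 < t₀) (ht₁ : t₀ ≤ 1) {s : ℝ} (hs0 : 0 ≤ s)
    (hs2 : s ≤ 2) (a : ℝ) : (max a t₀) ^ (-s) ≤ t₀⁻¹ ^ 2 := by
  have h2 : (max a t₀) ^ (-s) ≤ t₀ ^ (-s) :=
    Real.rpow_le_rpow_of_nonpos ht₀ (le_max_right _ _) (by linarith)
  have h3 : t₀ ^ (-s) ≤ t₀ ^ (-(2 : ℝ)) :=
    Real.rpow_le_rpow_of_exponent_ge ht₀ ht₁ (by linarith)
  have h4 : t₀ ^ (-(2 : ℝ)) = t₀⁻¹ ^ 2 := by
    rw [Real.rpow_neg ht₀.le, ← Real.inv_rpow ht₀.le]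
    exact_mod_cast Real.rpow_natCast t₀⁻¹ 2
  linarith

variable {K} {W : mixedSpace K → ℝ}

theorem gfun_nonneg (hW : IsUnitWeight K W) (s : ℝ) (x : mixedSpace K) : 0 ≤ gfun K W s x :=
  mul_nonneg (hW.nonneg x) (Real.rpow_nonneg (le_max_of_le_right zero_le_one) _)

theorem gfun_le_one (hW : IsUnitWeight K W) {s : ℝ} (hs : 0 ≤ s) (x : mixedSpace K) :
    gfun K W s x ≤ 1 := by
  have h1 : (max (mixedEmbedding.norm x) 1) ^ (-s) ≤ 1 :=
    Real.rpow_le_one_of_one_le_of_nonpos (le_max_right _ _) (by linarith)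
  have h2 : 0 ≤ (max (mixedEmbedding.norm x) 1) ^ (-s) :=
    Real.rpow_nonneg (le_max_of_le_right zero_le_one) _
  calc gfun K W s x = W x * (max (mixedEmbedding.norm x) 1) ^ (-s) := rfl
    _ ≤ 1 * 1 := mul_le_mul (hW.le_one x) h1 h2 zero_le_one
    _ = 1 := one_mul 1

theorem gfun_zero (hW : IsUnitWeight K W) (s : ℝ) : gfun K W s 0 = 0 := by
  rw [gfun, hW.zero, zero_mul]

theorem IsUnitWeight.ne_zero_of_ne (hW : IsUnitWeight K W) {x : mixedSpace K} (hx : W x ≠ 0) :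
    x ≠ 0 := fun h => hx (h ▸ hW.zero)

/-- The decay bound `G_s(x) ≤ B^s ‖x‖^(-n s)`. -/
theorem gfun_le (hW : IsUnitWeight K W) {B : ℝ} (hB : 1 ≤ B)
    (hcone : ∀ x, W x ≠ 0 → ‖x‖ ^ finrank ℚ K ≤ B * mixedEmbedding.norm x) {s : ℝ} (hs : 0 ≤ s)
    (x : mixedSpace K) : gfun K W s x ≤ B ^ s * ‖x‖ ^ (-(finrank ℚ K * s)) := by
  have hB0 : 0 < B := zero_lt_one.trans_le hB
  by_cases hx : W x = 0
  · rw [gfun, hx, zero_mul]
    exact mul_nonneg (Real.rpow_nonneg hB0.le _) (Real.rpow_nonneg (norm_nonneg _) _)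
  have hx0 : 0 < ‖x‖ := norm_pos_iff.2 (hW.ne_zero_of_ne hx)
  have hxn : 0 < ‖x‖ ^ finrank ℚ K := pow_pos hx0 _
  have h1 := hcone x hx
  have hN : 0 < mixedEmbedding.norm x := by
    by_contra h
    have h3 : mixedEmbedding.norm x = 0 :=
      le_antisymm (not_lt.1 h) (mixedEmbedding.norm_nonneg x)
    rw [h3, mul_zero] at h1
    linarith
  have h2 : ‖x‖ ^ finrank ℚ K / B ≤ mixedEmbedding.norm x := by
    rw [div_le_iff₀ hB0]; linarith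
  have h3 : (max (mixedEmbedding.norm x) 1) ^ (-s) ≤ (‖x‖ ^ finrank ℚ K / B) ^ (-s) :=
    Real.rpow_le_rpow_of_nonpos (div_pos hxn hB0) (h2.trans (le_max_left _ _)) (by linarith)
  have h4 : (‖x‖ ^ finrank ℚ K / B) ^ (-s) = B ^ s * ‖x‖ ^ (-(finrank ℚ K * s)) := by
    rw [Real.rpow_neg (div_pos hxn hB0).le, Real.div_rpow hxn.le hB0.le, inv_div,
      Real.rpow_neg hx0.le, Real.rpow_mul hx0.le, Real.rpow_natCast, div_eq_mul_inv]
  have h5 : 0 ≤ (max (mixedEmbedding.norm x) 1) ^ (-s) :=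
    Real.rpow_nonneg (le_max_of_le_right zero_le_one) _
  calc gfun K W s x = W x * (max (mixedEmbedding.norm x) 1) ^ (-s) := rfl
    _ ≤ 1 * (max (mixedEmbedding.norm x) 1) ^ (-s) :=
        mul_le_mul_of_nonneg_right (hW.le_one x) h5
    _ ≤ B ^ s * ‖x‖ ^ (-(finrank ℚ K * s)) := by rw [one_mul, ← h4]; exact h3

/-- Lipschitz continuity on the annulus of the rescaled kernel, uniformly in `s ∈ [1,2]`. -/
theorem exists_annulus_lip (hW : IsUnitWeight K W) :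
    ∃ t₀ Lh : ℝ, 0 < t₀ ∧ t₀ ≤ 1 ∧ 0 ≤ Lh ∧
      (∀ z : mixedSpace K, 1 / 2 ≤ ‖z‖ → W z ≠ 0 → t₀ ≤ mixedEmbedding.norm z) ∧
      ∀ s : ℝ, 1 ≤ s → s ≤ 2 → ∀ z z' : mixedSpace K, 1 / 2 ≤ ‖z‖ → ‖z‖ ≤ 2 → 1 / 2 ≤ ‖z'‖ →
        ‖z'‖ ≤ 2 →
        |W z * (max (mixedEmbedding.norm z) t₀) ^ (-s)
          - W z' * (max (mixedEmbedding.norm z') t₀) ^ (-s)| ≤ Lh * ‖z - z'‖ := by
  obtain ⟨B, hB, hcone⟩ := hW.cone
  obtain ⟨L, hL, hlip⟩ := hW.lip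
  obtain ⟨LN, hLN, hN⟩ := (bLipOn_mixedNorm K 2).lipschitz
  have hB0 : 0 < B := zero_lt_one.trans_le hB
  set t₀ : ℝ := (1 / 2) ^ finrank ℚ K / B with ht₀def
  have ht₀ : 0 < t₀ := by positivity
  have ht₁ : t₀ ≤ 1 := by
    rw [ht₀def, div_le_one hB0]
    exact (pow_le_one₀ (by norm_num) (by norm_num)).trans hB
  refine ⟨t₀, L * t₀⁻¹ ^ 2 + 2 * t₀⁻¹ ^ 3 * LN, ht₀, ht₁, by positivity, ?_, ?_⟩
  · intro z hz hWz
    have h1 := hcone z hWz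
    have h2 : (1 / 2 : ℝ) ^ finrank ℚ K ≤ ‖z‖ ^ finrank ℚ K :=
      pow_le_pow_left₀ (by norm_num) hz _
    rw [ht₀def, div_le_iff₀ hB0]
    linarith
  · intro s hs1 hs2 z z' hz1 hz2 hz'1 hz'2
    set θ : mixedSpace K → ℝ := fun z => (max (mixedEmbedding.norm z) t₀) ^ (-s) with hθ
    have hθ0 : ∀ z, 0 ≤ θ z := fun z => Real.rpow_nonneg (le_max_of_le_right ht₀.le) _
    have hθle : ∀ z, θ z ≤ t₀⁻¹ ^ 2 := fun z => rpow_neg_max_le ht₀ ht₁ (by linarith) hs2 _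
    have e : W z * θ z - W z' * θ z' = (W z - W z') * θ z + W z' * (θ z - θ z') := by ring
    show |W z * θ z - W z' * θ z'| ≤ _
    rw [e]
    have h1 : |(W z - W z') * θ z| ≤ L * t₀⁻¹ ^ 2 * ‖z - z'‖ := by
      rw [abs_mul, abs_of_nonneg (hθ0 z)]
      have := hlip z z' hz1 hz2 hz'1 hz'2
      calc |W z - W z'| * θ z ≤ (L * ‖z - z'‖) * t₀⁻¹ ^ 2 :=
            mul_le_mul this (hθle z) (hθ0 z) (by positivity)
        _ = L * t₀⁻¹ ^ 2 * ‖z - z'‖ := by ring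
    have h2 : |W z' * (θ z - θ z')| ≤ 2 * t₀⁻¹ ^ 3 * LN * ‖z - z'‖ := by
      rw [abs_mul, abs_of_nonneg (hW.nonneg z')]
      have h3 : |θ z - θ z'| ≤ 2 * t₀⁻¹ ^ 3 * |mixedEmbedding.norm z - mixedEmbedding.norm z'| :=
        abs_rpow_neg_sub_le ht₀ ht₁ hs1 hs2 _ _
      have h4 : |mixedEmbedding.norm z - mixedEmbedding.norm z'| ≤ LN * ‖z - z'‖ :=
        hN z hz2 z' hz'2
      calc W z' * |θ z - θ z'| ≤ 1 * (2 * t₀⁻¹ ^ 3 * (LN * ‖z - z'‖)) := by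
            refine mul_le_mul (hW.le_one z') (h3.trans ?_) (abs_nonneg _) zero_le_one
            exact mul_le_mul_of_nonneg_left h4 (by positivity)
        _ = 2 * t₀⁻¹ ^ 3 * LN * ‖z - z'‖ := by ring
    calc |(W z - W z') * θ z + W z' * (θ z - θ z')|
        ≤ |(W z - W z') * θ z| + |W z' * (θ z - θ z')| := abs_add_le _ _
      _ ≤ L * t₀⁻¹ ^ 2 * ‖z - z'‖ + 2 * t₀⁻¹ ^ 3 * LN * ‖z - z'‖ := add_le_add h1 h2
      _ = (L * t₀⁻¹ ^ 2 + 2 * t₀⁻¹ ^ 3 * LN) * ‖z - z'‖ := by ring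

/-- The scaling identity: far from the origin `G_s(z) = r^(-n s) * h_s(z / r)`. -/
theorem gfun_eq_scaled (hW : IsUnitWeight K W) {B t₀ : ℝ} (hB : 1 ≤ B)
    (hcone : ∀ x, W x ≠ 0 → ‖x‖ ^ finrank ℚ K ≤ B * mixedEmbedding.norm x)
    (ht₀ : ∀ z : mixedSpace K, 1 / 2 ≤ ‖z‖ → W z ≠ 0 → t₀ ≤ mixedEmbedding.norm z)
    (s : ℝ) {r : ℝ} (hr : 0 < r) {z : mixedSpace K} (hzB : B ≤ ‖z‖) (hzr : r / 2 ≤ ‖z‖) :
    gfun K W s z = r ^ (-(finrank ℚ K * s)) *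
      (W (r⁻¹ • z) * (max (mixedEmbedding.norm (r⁻¹ • z)) t₀) ^ (-s)) := by
  have hB0 : 0 < B := zero_lt_one.trans_le hB
  have hWs : W (r⁻¹ • z) = W z := hW.smul _ (inv_pos.2 hr) z
  by_cases hz : W z = 0
  · rw [gfun, hWs, hz, zero_mul, zero_mul, mul_zero]
  have hz' : W (r⁻¹ • z) ≠ 0 := by rwa [hWs]
  have hn : 0 < finrank ℚ K := finrank_pos
  -- `N z ≥ 1`
  have h1 := hcone z hz
  have hBn : B ≤ ‖z‖ ^ finrank ℚ K := by
    have h2 : B ^ finrank ℚ K ≤ ‖z‖ ^ finrank ℚ K := pow_le_pow_left₀ hB0.le hzB _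
    exact (le_self_pow₀ hB hn.ne').trans h2
  have hN1 : 1 ≤ mixedEmbedding.norm z := by
    by_contra h
    have : B * mixedEmbedding.norm z < B * 1 := mul_lt_mul_of_pos_left (not_le.1 h) hB0
    linarith
  have hNpos : 0 < mixedEmbedding.norm z := zero_lt_one.trans_le hN1
  -- the scaled point lies in the annulus region `‖·‖ ≥ 1/2`
  have hnorm : ‖r⁻¹ • z‖ = r⁻¹ * ‖z‖ := by
    rw [_root_.norm_smul, Real.norm_eq_abs, abs_of_pos (inv_pos.2 hr)]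
  have hhalf : 1 / 2 ≤ ‖r⁻¹ • z‖ := by
    rw [hnorm, inv_mul_eq_div, le_div_iff₀ hr]; linarith
  have hNs : mixedEmbedding.norm (r⁻¹ • z) = (r ^ finrank ℚ K)⁻¹ * mixedEmbedding.norm z := by
    rw [mixedEmbedding.norm_smul, abs_of_pos (inv_pos.2 hr), inv_pow]
  have ht := ht₀ _ hhalf hz'
  rw [gfun, max_eq_left hN1, max_eq_left ht, hWs, hNs]
  have hrn : 0 < r ^ finrank ℚ K := pow_pos hr _
  set P : ℝ := (r ^ finrank ℚ K) ^ s with hP
  have hPpos : 0 < P := Real.rpow_pos_of_pos hrn s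
  have e1 : r ^ (-(finrank ℚ K * s)) = P⁻¹ := by
    rw [Real.rpow_neg hr.le, Real.rpow_mul hr.le, Real.rpow_natCast]
  have e2 : ((r ^ finrank ℚ K)⁻¹ * mixedEmbedding.norm z) ^ (-s)
      = P * (mixedEmbedding.norm z) ^ (-s) := by
    rw [Real.mul_rpow (inv_pos.2 hrn).le hNpos.le, Real.inv_rpow hrn.le, Real.rpow_neg hrn.le,
      inv_inv]
  rw [e1, e2]
  field_simp

/-- **The shift estimate.** -/
theorem shift_estimate (hW : IsUnitWeight K W) (lam : mixedSpace K) :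
    ∃ C R : ℝ, 0 ≤ C ∧ 1 ≤ R ∧ ∀ s : ℝ, 1 ≤ s → s ≤ 2 → ∀ x : mixedSpace K, R ≤ ‖x‖ →
      |gfun K W s (x + lam) - gfun K W s x| ≤ C * ‖x‖ ^ (-(finrank ℚ K + 1 : ℝ)) := by
  obtain ⟨B, hB, hcone⟩ := hW.cone
  obtain ⟨t₀, Lh, ht₀, ht₁, hLh, hnorm₀, hlip⟩ := exists_annulus_lip hW
  have hB0 : 0 < B := zero_lt_one.trans_le hB
  refine ⟨Lh * ‖lam‖, 2 * ‖lam‖ + 2 * B + 1, by positivity, by
    have := norm_nonneg lam; linarith, ?_⟩
  intro s hs1 hs2 x hx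
  set r : ℝ := ‖x‖ with hr
  have hlam := norm_nonneg lam
  have hr1 : 1 ≤ r := by linarith
  have hr0 : 0 < r := by linarith
  have hy1 : r - ‖lam‖ ≤ ‖x + lam‖ := by
    have := norm_sub_norm_le x (-lam)
    rw [norm_neg, sub_neg_eq_add] at this
    linarith
  have hy2 : ‖x + lam‖ ≤ r + ‖lam‖ := norm_add_le x lam
  have ex := gfun_eq_scaled hW hB hcone hnorm₀ s hr0 (z := x) (by linarith) (by linarith)
  have ey := gfun_eq_scaled hW hB hcone hnorm₀ s hr0 (z := x + lam) (by linarith) (by linarith)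
  rw [ex, ey, ← mul_sub, abs_mul]
  have hnx : ‖r⁻¹ • x‖ = 1 := by
    rw [_root_.norm_smul, Real.norm_eq_abs, abs_of_pos (inv_pos.2 hr0), ← hr, inv_mul_cancel₀ hr0.ne']
  have hny : ‖r⁻¹ • (x + lam)‖ = r⁻¹ * ‖x + lam‖ := by
    rw [_root_.norm_smul, Real.norm_eq_abs, abs_of_pos (inv_pos.2 hr0)]
  have hny1 : 1 / 2 ≤ ‖r⁻¹ • (x + lam)‖ := by
    rw [hny, inv_mul_eq_div, le_div_iff₀ hr0]; linarith
  have hny2 : ‖r⁻¹ • (x + lam)‖ ≤ 2 := by
    rw [hny, inv_mul_eq_div, div_le_iff₀ hr0]; linarith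
  have h1 := hlip s hs1 hs2 (r⁻¹ • (x + lam)) (r⁻¹ • x) hny1 hny2 (by rw [hnx]; norm_num)
    (by rw [hnx]; norm_num)
  have hdiff : ‖r⁻¹ • (x + lam) - r⁻¹ • x‖ = r⁻¹ * ‖lam‖ := by
    rw [← smul_sub, add_sub_cancel_left, _root_.norm_smul, Real.norm_eq_abs,
      abs_of_pos (inv_pos.2 hr0)]
  rw [hdiff] at h1
  have hpow0 : 0 ≤ r ^ (-(finrank ℚ K * s)) := Real.rpow_nonneg hr0.le _
  rw [abs_of_nonneg hpow0]
  have hpow1 : r ^ (-(finrank ℚ K * s)) ≤ r ^ (-(finrank ℚ K : ℝ)) := by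
    apply Real.rpow_le_rpow_of_exponent_le hr1
    have : (finrank ℚ K : ℝ) * 1 ≤ finrank ℚ K * s :=
      mul_le_mul_of_nonneg_left hs1 (Nat.cast_nonneg _)
    linarith
  have hpow2 : r ^ (-(finrank ℚ K + 1 : ℝ)) = r ^ (-(finrank ℚ K : ℝ)) * r⁻¹ := by
    rw [neg_add, Real.rpow_add hr0, Real.rpow_neg_one]
  calc r ^ (-(finrank ℚ K * s)) * |W (r⁻¹ • (x + lam)) *
          (max (mixedEmbedding.norm (r⁻¹ • (x + lam))) t₀) ^ (-s) -
          W (r⁻¹ • x) * (max (mixedEmbedding.norm (r⁻¹ • x)) t₀) ^ (-s)|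
      ≤ r ^ (-(finrank ℚ K : ℝ)) * (Lh * (r⁻¹ * ‖lam‖)) :=
        mul_le_mul hpow1 h1 (abs_nonneg _) (Real.rpow_nonneg hr0.le _)
    _ = Lh * ‖lam‖ * r ^ (-(finrank ℚ K + 1 : ℝ)) := by rw [hpow2]; ring

end Fermat.Agent.Lib.SmoothCount
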