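import Fermat.Agent.Lib.SmoothCount.Defs

/-!
# Unfolding: class sums as weighted lattice sums (helper6; leaf [Unfold] of helper19's route)

For a weight `W` on the mixed space summing to `1` along every unit orbit, a sum over the
nonzero elements `γ` of an integral ideal `J`, weighted by `W`, of a function of the ideal norm
of `(γ)` equals the sum over the integral ideals `I` in the class `[J]⁻¹` of the same function of
`N(I) N(J)`.  Everything is done in `ℝ≥0∞`, so there are no summability side conditions.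
-/

set_option linter.unusedSectionVars false

namespace Fermat.Agent.Lib.SmoothCount

open NumberField NumberField.mixedEmbedding Module

open scoped ENNReal nonZeroDivisors Classical

variable (K : Type*) [Field K] [NumberField K]

/-- The nonzero principal ideals divisible by `J`. -/
abbrev PrincipalDvd (J : (Ideal (𝓞 K))⁰) : Type _ :=
  {I : (Ideal (𝓞 K))⁰ // (J : Ideal (𝓞 K)) ∣ I ∧ (I : Ideal (𝓞 K)).IsPrincipal}

variable {K}

/-- A chosen generator of a principal ideal divisible by `J`. -/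
noncomputable def unfoldGen {J : (Ideal (𝓞 K))⁰} (I : PrincipalDvd K J) : 𝓞 K :=
  @Submodule.IsPrincipal.generator _ _ _ _ _ (I.1 : Ideal (𝓞 K)) I.2.2

theorem span_unfoldGen {J : (Ideal (𝓞 K))⁰} (I : PrincipalDvd K J) :
    Ideal.span {unfoldGen I} = (I.1 : Ideal (𝓞 K)) :=
  @Ideal.span_singleton_generator _ _ (I.1 : Ideal (𝓞 K)) I.2.2

theorem unfoldGen_ne_zero {J : (Ideal (𝓞 K))⁰} (I : PrincipalDvd K J) : unfoldGen I ≠ 0 := by
  intro h
  have h1 := span_unfoldGen I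
  rw [h, Ideal.span_singleton_eq_bot.mpr rfl] at h1
  exact nonZeroDivisors.coe_ne_zero I.1 h1.symm

theorem unfoldGen_mem {J : (Ideal (𝓞 K))⁰} (I : PrincipalDvd K J) :
    unfoldGen I ∈ (J : Ideal (𝓞 K)) := by
  have h1 : unfoldGen I ∈ (I.1 : Ideal (𝓞 K)) := by
    rw [← span_unfoldGen I]
    exact Ideal.mem_span_singleton_self _
  exact Ideal.le_of_dvd I.2.1 h1

/-- `(I, u) ↦ u * g_I`: the nonzero elements of `J` are the unit multiples of the chosen
generators of the principal ideals divisible by `J`. -/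
noncomputable def unfoldMap (J : (Ideal (𝓞 K))⁰) (p : PrincipalDvd K J × (𝓞 K)ˣ) :
    {γ : ↥(J : Ideal (𝓞 K)) // γ ≠ 0} :=
  ⟨⟨(p.2 : 𝓞 K) * unfoldGen p.1, Ideal.mul_mem_left _ _ (unfoldGen_mem p.1)⟩, by
    intro h
    have h' : (p.2 : 𝓞 K) * unfoldGen p.1 = 0 := congrArg Subtype.val h
    rcases mul_eq_zero.mp h' with h0 | h0
    · exact p.2.ne_zero h0
    · exact unfoldGen_ne_zero p.1 h0⟩

theorem unfoldMap_coe (J : (Ideal (𝓞 K))⁰) (p : PrincipalDvd K J × (𝓞 K)ˣ) :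
    (((unfoldMap J p : {γ : ↥(J : Ideal (𝓞 K)) // γ ≠ 0}) : ↥(J : Ideal (𝓞 K))) : 𝓞 K) =
      (p.2 : 𝓞 K) * unfoldGen p.1 := rfl

theorem span_unfoldMap (J : (Ideal (𝓞 K))⁰) (p : PrincipalDvd K J × (𝓞 K)ˣ) :
    Ideal.span {(((unfoldMap J p : {γ : ↥(J : Ideal (𝓞 K)) // γ ≠ 0}) :
      ↥(J : Ideal (𝓞 K))) : 𝓞 K)} = (p.1.1 : Ideal (𝓞 K)) := by
  rw [unfoldMap_coe, Ideal.span_singleton_mul_left_unit p.2.isUnit, span_unfoldGen]

theorem unfoldMap_bijective (J : (Ideal (𝓞 K))⁰) : Function.Bijective (unfoldMap J) := by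
  constructor
  · rintro ⟨I, u⟩ ⟨I', u'⟩ h
    have hI : I = I' := by
      apply Subtype.ext
      apply Subtype.ext
      have h1 := span_unfoldMap J (I, u)
      have h2 := span_unfoldMap J (I', u')
      rw [h] at h1
      exact h1.symm.trans h2
    subst hI
    have h3 : (u : 𝓞 K) * unfoldGen I = (u' : 𝓞 K) * unfoldGen I := by
      have := congrArg (fun γ : {γ : ↥(J : Ideal (𝓞 K)) // γ ≠ 0} =>
        ((γ : ↥(J : Ideal (𝓞 K))) : 𝓞 K)) h
      simpa only [unfoldMap_coe] using this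
    have h4 : (u : 𝓞 K) = u' := mul_right_cancel₀ (unfoldGen_ne_zero I) h3
    rw [Units.ext h4]
  · rintro ⟨⟨γ, hγJ⟩, hγ⟩
    have hγ0 : γ ≠ 0 := fun h => hγ (Subtype.ext h)
    have hspan0 : Ideal.span {γ} ≠ (0 : Ideal (𝓞 K)) := by
      rw [Ideal.zero_eq_bot, Ne, Ideal.span_singleton_eq_bot]
      exact hγ0
    let I : PrincipalDvd K J :=
      ⟨⟨Ideal.span {γ}, mem_nonZeroDivisors_iff_ne_zero.mpr hspan0⟩,
        (Ideal.dvd_span_singleton).mpr hγJ, ⟨γ, rfl⟩⟩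
    have hass : Associated (unfoldGen I) γ := by
      rw [← Ideal.span_singleton_eq_span_singleton]
      exact span_unfoldGen I
    obtain ⟨u, hu⟩ := hass
    refine ⟨(I, u), ?_⟩
    apply Subtype.ext
    apply Subtype.ext
    rw [unfoldMap_coe]
    show (u : 𝓞 K) * unfoldGen I = γ
    rw [mul_comm]
    exact hu

theorem unfold_norm_ne_zero {x : 𝓞 K} (hx : x ≠ 0) :
    mixedEmbedding.norm (mixedEmbedding K (x : K)) ≠ 0 := by
  rw [norm_eq_norm]
  simpa using hx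

/-- **Unfolding, `ℝ≥0∞`-weight form.** If `w` sums to `κ` along every unit orbit, then the
`w`-weighted sum over the nonzero elements `γ` of `J` of `F (N (γ))` is `κ` times the sum of
`F (N I)` over the nonzero principal ideals `I` divisible by `J`. -/
theorem tsum_unfold_principal (w : mixedSpace K → ℝ≥0∞) (κ : ℝ≥0∞)
    (hw : ∀ x : mixedSpace K, mixedEmbedding.norm x ≠ 0 → ∑' u : (𝓞 K)ˣ, w (u • x) = κ)
    (J : (Ideal (𝓞 K))⁰) (F : ℕ → ℝ≥0∞) :
    ∑' γ : {γ : ↥(J : Ideal (𝓞 K)) // γ ≠ 0},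
        w (mixedEmbedding K (((γ : ↥(J : Ideal (𝓞 K))) : 𝓞 K) : K)) *
          F (Ideal.absNorm (Ideal.span {((γ : ↥(J : Ideal (𝓞 K))) : 𝓞 K)}))
      = κ * ∑' I : PrincipalDvd K J, F (Ideal.absNorm (I.1 : Ideal (𝓞 K))) := by
  rw [← (Equiv.ofBijective (unfoldMap J) (unfoldMap_bijective J)).tsum_eq, ENNReal.tsum_prod',
    ← ENNReal.tsum_mul_left]
  refine tsum_congr fun I => ?_
  have h2 : ∀ u : (𝓞 K)ˣ, mixedEmbedding K ((((u : 𝓞 K) * unfoldGen I : 𝓞 K)) : K) =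
      u • mixedEmbedding K (unfoldGen I : K) := by
    intro u
    rw [unitSMul_smul, ← map_mul]
    rfl
  have h1 : ∀ u : (𝓞 K)ˣ, Ideal.span {(u : 𝓞 K) * unfoldGen I} = (I.1 : Ideal (𝓞 K)) := fun u => by
    rw [Ideal.span_singleton_mul_left_unit u.isUnit, span_unfoldGen]
  simp only [Equiv.ofBijective_apply, unfoldMap_coe, h2, h1]
  rw [ENNReal.tsum_mul_right, hw _ (unfold_norm_ne_zero (unfoldGen_ne_zero I))]

/-- `I ↦ J * I` from the ideals in the class `[J]⁻¹` to the principal ideals divisible by `J`. -/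
noncomputable def classToPrincipal (J : (Ideal (𝓞 K))⁰)
    (I : {I : (Ideal (𝓞 K))⁰ // ClassGroup.mk0 I = (ClassGroup.mk0 J)⁻¹}) : PrincipalDvd K J :=
  ⟨J * I.1, by
    refine ⟨⟨(I.1 : Ideal (𝓞 K)), by rw [Submonoid.coe_mul]⟩, ?_⟩
    rw [← ClassGroup.mk0_eq_one_iff (SetLike.coe_mem (J * I.1)), Subtype.coe_eta, map_mul, I.2,
      mul_inv_cancel]⟩

theorem classToPrincipal_coe (J : (Ideal (𝓞 K))⁰)
    (I : {I : (Ideal (𝓞 K))⁰ // ClassGroup.mk0 I = (ClassGroup.mk0 J)⁻¹}) :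
    ((classToPrincipal J I).1 : Ideal (𝓞 K)) = (J : Ideal (𝓞 K)) * (I.1 : Ideal (𝓞 K)) := rfl

theorem classToPrincipal_bijective (J : (Ideal (𝓞 K))⁰) :
    Function.Bijective (classToPrincipal J) := by
  constructor
  · rintro ⟨I, hI⟩ ⟨I', hI'⟩ h
    apply Subtype.ext
    apply Subtype.ext
    have h1 : (J : Ideal (𝓞 K)) * (I : Ideal (𝓞 K)) = (J : Ideal (𝓞 K)) * (I' : Ideal (𝓞 K)) := by
      rw [← classToPrincipal_coe J ⟨I, hI⟩, ← classToPrincipal_coe J ⟨I', hI'⟩, h]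
    exact mul_left_cancel₀ (nonZeroDivisors.coe_ne_zero J) h1
  · rintro ⟨I, ⟨c, hc⟩, hprin⟩
    have hc0 : c ≠ 0 := by
      rintro rfl
      rw [mul_zero] at hc
      exact nonZeroDivisors.coe_ne_zero I hc
    let c' : (Ideal (𝓞 K))⁰ := ⟨c, mem_nonZeroDivisors_iff_ne_zero.mpr hc0⟩
    have hJc : J * c' = I := Subtype.ext (by rw [Submonoid.coe_mul]; exact hc.symm)
    have hcl : ClassGroup.mk0 c' = (ClassGroup.mk0 J)⁻¹ := by
      rw [eq_inv_iff_mul_eq_one, ← map_mul, mul_comm, hJc]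
      have := (ClassGroup.mk0_eq_one_iff (SetLike.coe_mem I)).mpr hprin
      rwa [Subtype.coe_eta] at this
    refine ⟨⟨c', hcl⟩, ?_⟩
    apply Subtype.ext
    exact hJc

/-- The sum over the principal ideals divisible by `J` as a sum over the class `[J]⁻¹`. -/
theorem tsum_principal_eq_tsum_class (J : (Ideal (𝓞 K))⁰) (G : ℕ → ℝ≥0∞) :
    ∑' I : PrincipalDvd K J, G (Ideal.absNorm (I.1 : Ideal (𝓞 K))) =
      ∑' I : {I : (Ideal (𝓞 K))⁰ // ClassGroup.mk0 I = (ClassGroup.mk0 J)⁻¹},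
        G (Ideal.absNorm (I : Ideal (𝓞 K)) * Ideal.absNorm (J : Ideal (𝓞 K))) := by
  rw [← (Equiv.ofBijective (classToPrincipal J) (classToPrincipal_bijective J)).tsum_eq]
  refine tsum_congr fun I => ?_
  rw [Equiv.ofBijective_apply, classToPrincipal_coe, map_mul, mul_comm]

/-- **Unfolding, `ℝ≥0∞`-weight form, over the ideal class.** -/
theorem tsum_unfold_ennreal (w : mixedSpace K → ℝ≥0∞) (κ : ℝ≥0∞)
    (hw : ∀ x : mixedSpace K, mixedEmbedding.norm x ≠ 0 → ∑' u : (𝓞 K)ˣ, w (u • x) = κ)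
    (J : (Ideal (𝓞 K))⁰) (F : ℕ → ℝ≥0∞) :
    ∑' γ : {γ : ↥(J : Ideal (𝓞 K)) // γ ≠ 0},
        w (mixedEmbedding K (((γ : ↥(J : Ideal (𝓞 K))) : 𝓞 K) : K)) *
          F (Ideal.absNorm (Ideal.span {((γ : ↥(J : Ideal (𝓞 K))) : 𝓞 K)}))
      = κ * ∑' I : {I : (Ideal (𝓞 K))⁰ // ClassGroup.mk0 I = (ClassGroup.mk0 J)⁻¹},
        F (Ideal.absNorm (I : Ideal (𝓞 K)) * Ideal.absNorm (J : Ideal (𝓞 K))) := by
  rw [tsum_unfold_principal w κ hw J F, tsum_principal_eq_tsum_class J F]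

/-- **Unfolding, real weight with orbit sums `κ`** (e.g. `κ = torsionOrder K` for weights that
are functions of `logMap`). The sum is over the nonzero elements of `J`. -/
theorem tsum_unfold_of_hasSum (W : mixedSpace K → ℝ) (hnn : ∀ x, 0 ≤ W x) (κ : ℝ)
    (hunit : ∀ x, mixedEmbedding.norm x ≠ 0 → HasSum (fun u : (𝓞 K)ˣ => W (u • x)) κ)
    (J : (Ideal (𝓞 K))⁰) (F : ℕ → ℝ≥0∞) :
    ∑' γ : {γ : ↥(J : Ideal (𝓞 K)) // γ ≠ 0},
        ENNReal.ofReal (W (mixedEmbedding K (((γ : ↥(J : Ideal (𝓞 K))) : 𝓞 K) : K))) *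
          F (Ideal.absNorm (Ideal.span {((γ : ↥(J : Ideal (𝓞 K))) : 𝓞 K)}))
      = ENNReal.ofReal κ * ∑' I : {I : (Ideal (𝓞 K))⁰ // ClassGroup.mk0 I = (ClassGroup.mk0 J)⁻¹},
        F (Ideal.absNorm (I : Ideal (𝓞 K)) * Ideal.absNorm (J : Ideal (𝓞 K))) := by
  have hw : ∀ x : mixedSpace K, mixedEmbedding.norm x ≠ 0 →
      ∑' u : (𝓞 K)ˣ, ENNReal.ofReal (W (u • x)) = ENNReal.ofReal κ := by
    intro x hx
    rw [← ENNReal.ofReal_tsum_of_nonneg (fun u => hnn _) (hunit x hx).summable,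
      (hunit x hx).tsum_eq]
  exact tsum_unfold_ennreal (fun x => ENNReal.ofReal (W x)) (ENNReal.ofReal κ) hw J F

variable (K) in
/-- **Unfolding** (contract of helper19, #1221). -/
theorem tsum_unfold (W : mixedSpace K → ℝ) (hW0 : W 0 = 0) (hnn : ∀ x, 0 ≤ W x)
    (hunit : ∀ x, mixedEmbedding.norm x ≠ 0 → HasSum (fun u : (𝓞 K)ˣ => W (u • x)) 1)
    (J : (Ideal (𝓞 K))⁰) (F : ℕ → ℝ≥0∞) :
    ∑' γ : (J : Ideal (𝓞 K)), ENNReal.ofReal (W (mixedEmbedding K ((γ : 𝓞 K) : K))) *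
        F (Ideal.absNorm (Ideal.span {(γ : 𝓞 K)}))
      = ∑' I : {I : (Ideal (𝓞 K))⁰ // ClassGroup.mk0 I = (ClassGroup.mk0 J)⁻¹},
        F (Ideal.absNorm (I : Ideal (𝓞 K)) * Ideal.absNorm (J : Ideal (𝓞 K))) := by
  have hw : ∀ x : mixedSpace K, mixedEmbedding.norm x ≠ 0 →
      ∑' u : (𝓞 K)ˣ, ENNReal.ofReal (W (u • x)) = 1 := by
    intro x hx
    rw [← ENNReal.ofReal_tsum_of_nonneg (fun u => hnn _) (hunit x hx).summable,
      (hunit x hx).tsum_eq, ENNReal.ofReal_one]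
  have key := tsum_unfold_ennreal (fun x => ENNReal.ofReal (W x)) 1 hw J F
  rw [one_mul] at key
  rw [← key]
  have hsupp : Function.support (fun γ : (J : Ideal (𝓞 K)) =>
      ENNReal.ofReal (W (mixedEmbedding K ((γ : 𝓞 K) : K))) *
        F (Ideal.absNorm (Ideal.span {(γ : 𝓞 K)}))) ⊆ {γ | γ ≠ 0} := by
    intro γ hγ h0
    apply hγ
    show ENNReal.ofReal (W (mixedEmbedding K ((γ : 𝓞 K) : K))) *
        F (Ideal.absNorm (Ideal.span {(γ : 𝓞 K)})) = 0
    rw [h0]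
    simp [hW0]
  exact (tsum_subtype_eq_of_support_subset hsupp).symm

end Fermat.Agent.Lib.SmoothCount
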