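import Fermat.Agent.Lib.SmoothCount.Shift

/-!
# Existence of a smooth fundamental domain for the unit group

We construct `W : mixedSpace K → ℝ` with `IsUnitWeight K W`.  With `n = [K : ℚ]`,
`ρ_w(x) = ‖x‖_w ^ n / N(x)` and a Lipschitz ramp `τ` (`1` on `(-∞, b - 1]`, `0` on `[b, ∞)`), put
`Φ(x) = ∏_w τ(ρ_w(x))` (and `Φ(x) = 0` if `N(x) = 0`), `D(x) = ∑_u Φ(u • x)` (sum over all units)
and `W = Φ / D`.  The unit theorem (in the form: the norm-`≤ 1` part of Mathlib's fundamental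
cone is bounded) gives `D ≥ 1` for `b` large.
-/

namespace Fermat.Agent.Lib.SmoothCount

open NumberField NumberField.mixedEmbedding NumberField.InfinitePlace Module

open scoped Classical

variable (K : Type*) [Field K] [NumberField K]

/-! ### The ramp -/

/-- The ramp: `1` on `(-∞, b - 1]`, `0` on `[b, ∞)`, affine in between. -/
noncomputable def ramp (b t : ℝ) : ℝ := max 0 (min 1 (b - t))

theorem ramp_nonneg (b t : ℝ) : 0 ≤ ramp b t := le_max_left _ _

theorem ramp_le_one (b t : ℝ) : ramp b t ≤ 1 :=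
  max_le zero_le_one (min_le_left _ _)

theorem ramp_eq_one {b t : ℝ} (h : t ≤ b - 1) : ramp b t = 1 := by
  unfold ramp
  rw [min_eq_left (by linarith), max_eq_right zero_le_one]

theorem ramp_eq_zero {b t : ℝ} (h : b ≤ t) : ramp b t = 0 := by
  unfold ramp
  rw [min_eq_right (by linarith), max_eq_left (by linarith)]

theorem lt_of_ramp_ne_zero {b t : ℝ} (h : ramp b t ≠ 0) : t < b := by
  by_contra hcon
  exact h (ramp_eq_zero (not_lt.1 hcon))

theorem ramp_lip (b s t : ℝ) : |ramp b s - ramp b t| ≤ 1 * |s - t| := by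
  unfold ramp
  rw [one_mul]
  have h1 : |max 0 (min 1 (b - s)) - max 0 (min 1 (b - t))| ≤ |min 1 (b - s) - min 1 (b - t)| := by
    rw [max_comm 0, max_comm 0]
    exact abs_max_sub_max_le_abs _ _ _
  have h2 : |min 1 (b - s) - min 1 (b - t)| ≤ |(b - s) - (b - t)| := by
    refine (abs_min_sub_min_le_max _ _ _ _).trans ?_
    rw [sub_self, abs_zero]
    exact max_le (abs_nonneg _) le_rfl
  have h3 : |(b - s) - (b - t)| = |s - t| := by
    rw [show (b - s) - (b - t) = -(s - t) by ring, abs_neg]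
  linarith

/-! ### The cutoff -/

/-- The generalised cutoff `∏_w τ(a_w ‖x‖_w^n / max(N x, c))`. -/
noncomputable def phiT (b : ℝ) (a : InfinitePlace K → ℝ) (c : ℝ) (x : mixedSpace K) : ℝ :=
  ∏ w : InfinitePlace K,
    ramp b (a w * normAtPlace w x ^ finrank ℚ K / max (mixedEmbedding.norm x) c)

/-- The cutoff `Φ`. -/
noncomputable def phi (b : ℝ) (x : mixedSpace K) : ℝ :=
  if mixedEmbedding.norm x = 0 then 0 else phiT K b (fun _ => 1) 0 x

/-- The scaling vector of a unit. -/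
noncomputable def unitVec (u : (𝓞 K)ˣ) : InfinitePlace K → ℝ :=
  fun w => w ((u : 𝓞 K) : K) ^ finrank ℚ K

variable {K}

theorem phiT_nonneg (b : ℝ) (a : InfinitePlace K → ℝ) (c : ℝ) (x : mixedSpace K) :
    0 ≤ phiT K b a c x :=
  Finset.prod_nonneg fun _ _ => ramp_nonneg _ _

theorem phiT_le_one (b : ℝ) (a : InfinitePlace K → ℝ) (c : ℝ) (x : mixedSpace K) :
    phiT K b a c x ≤ 1 :=
  Finset.prod_le_one (fun _ _ => ramp_nonneg _ _) (fun _ _ => ramp_le_one _ _)

theorem phi_nonneg (b : ℝ) (x : mixedSpace K) : 0 ≤ phi K b x := by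
  unfold phi; split_ifs
  · exact le_rfl
  · exact phiT_nonneg _ _ _ _

theorem phi_le_one (b : ℝ) (x : mixedSpace K) : phi K b x ≤ 1 := by
  unfold phi; split_ifs
  · exact zero_le_one
  · exact phiT_le_one _ _ _ _

theorem phi_of_norm_eq_zero (b : ℝ) {x : mixedSpace K} (hx : mixedEmbedding.norm x = 0) :
    phi K b x = 0 := by
  unfold phi; rw [if_pos hx]

theorem phiT_congr_floor (b : ℝ) (a : InfinitePlace K → ℝ) {c : ℝ} {x : mixedSpace K}
    (hc : c ≤ mixedEmbedding.norm x) : phiT K b a c x = phiT K b a 0 x := by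
  unfold phiT
  rw [max_eq_left hc, max_eq_left (mixedEmbedding.norm_nonneg x)]

omit [NumberField K] in
theorem normAtPlace_unit_smul (u : (𝓞 K)ˣ) (x : mixedSpace K) (w : InfinitePlace K) :
    normAtPlace w (u • x) = w ((u : 𝓞 K) : K) * normAtPlace w x := by
  rw [unitSMul_smul, map_mul, normAtPlace_apply]

/-- `Φ(u • x)` in terms of the generalised cutoff. -/
theorem phi_unit_smul (b : ℝ) (u : (𝓞 K)ˣ) {x : mixedSpace K}
    (hx : mixedEmbedding.norm x ≠ 0) : phi K b (u • x) = phiT K b (unitVec K u) 0 x := by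
  unfold phi
  rw [norm_unit_smul, if_neg hx]
  unfold phiT unitVec
  refine Finset.prod_congr rfl fun w _ => ?_
  rw [norm_unit_smul, normAtPlace_unit_smul, mul_pow, one_mul]

theorem unitVec_one : unitVec K 1 = fun _ => 1 := by
  funext w
  simp [unitVec]

theorem phi_eq_phiT (b : ℝ) {x : mixedSpace K} (hx : mixedEmbedding.norm x ≠ 0) :
    phi K b x = phiT K b (unitVec K 1) 0 x := by
  rw [unitVec_one]; unfold phi; rw [if_neg hx]

/-- On the support of `Φ` every coordinate is controlled by the norm. -/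
theorem lt_of_phi_ne_zero {b : ℝ} {x : mixedSpace K} (h : phi K b x ≠ 0) :
    mixedEmbedding.norm x ≠ 0 ∧
      ∀ w : InfinitePlace K, normAtPlace w x ^ finrank ℚ K < b * mixedEmbedding.norm x := by
  have hx : mixedEmbedding.norm x ≠ 0 := fun h0 => h (phi_of_norm_eq_zero b h0)
  refine ⟨hx, fun w => ?_⟩
  have hpos : 0 < mixedEmbedding.norm x := lt_of_le_of_ne (mixedEmbedding.norm_nonneg x) (Ne.symm hx)
  unfold phi at h
  rw [if_neg hx] at h
  unfold phiT at h
  have hw := (Finset.prod_ne_zero_iff.1 h) w (Finset.mem_univ w)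
  have := lt_of_ramp_ne_zero hw
  rw [max_eq_left hpos.le, one_mul, div_lt_iff₀ hpos] at this
  exact this

theorem norm_pow_le_of_phi_ne_zero {b : ℝ} {x : mixedSpace K} (h : phi K b x ≠ 0) :
    ‖x‖ ^ finrank ℚ K ≤ b * mixedEmbedding.norm x := by
  obtain ⟨w, hw⟩ := exists_normAtPlace_eq_norm K x
  rw [← hw]
  exact ((lt_of_phi_ne_zero h).2 w).le

theorem phi_eq_one {b : ℝ} {x : mixedSpace K} (hx : mixedEmbedding.norm x ≠ 0)
    (h : ∀ w : InfinitePlace K,
      normAtPlace w x ^ finrank ℚ K ≤ (b - 1) * mixedEmbedding.norm x) :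
    phi K b x = 1 := by
  have hpos : 0 < mixedEmbedding.norm x := lt_of_le_of_ne (mixedEmbedding.norm_nonneg x) (Ne.symm hx)
  unfold phi
  rw [if_neg hx]
  unfold phiT
  refine Finset.prod_eq_one fun w _ => ramp_eq_one ?_
  rw [max_eq_left hpos.le, one_mul, div_le_iff₀ hpos]
  exact h w

theorem phi_smul (b : ℝ) {c : ℝ} (hc : 0 < c) (x : mixedSpace K) :
    phi K b (c • x) = phi K b x := by
  have hcn : (0 : ℝ) < |c| ^ finrank ℚ K := pow_pos (abs_pos.2 hc.ne') _
  unfold phi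
  rw [mixedEmbedding.norm_smul]
  by_cases hx : mixedEmbedding.norm x = 0
  · rw [if_pos hx, if_pos (by rw [hx, mul_zero])]
  · rw [if_neg hx, if_neg (mul_ne_zero hcn.ne' hx)]
    unfold phiT
    refine Finset.prod_congr rfl fun w _ => ?_
    rw [mixedEmbedding.norm_smul, normAtPlace_smul, mul_pow, one_mul, one_mul,
      max_eq_left (mul_nonneg hcn.le (mixedEmbedding.norm_nonneg x)),
      max_eq_left (mixedEmbedding.norm_nonneg x), mul_div_mul_left _ _ hcn.ne']

/-! ### Units with bounded conjugates -/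

variable (K) in
theorem finite_units_le (M : ℝ) :
    {u : (𝓞 K)ˣ | ∀ w : InfinitePlace K, w ((u : 𝓞 K) : K) ≤ M}.Finite := by
  have hfin := Embeddings.finite_of_norm_le K ℂ M
  refine Set.Finite.of_finite_image (f := fun u : (𝓞 K)ˣ => (((u : 𝓞 K)) : K))
    (hfin.subset ?_) ?_
  · rintro _ ⟨u, hu, rfl⟩
    refine ⟨RingOfIntegers.isIntegral_coe _, fun φ => ?_⟩
    rw [← InfinitePlace.apply]
    exact hu _
  · intro u _ v _ h
    exact Units.ext (RingOfIntegers.ext h)

theorem le_of_phi_unit_smul_ne_zero {b : ℝ} (hb : 0 ≤ b) {x : mixedSpace K}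
    (hx : mixedEmbedding.norm x ≠ 0) {u : (𝓞 K)ˣ} (h : phi K b (u • x) ≠ 0)
    (w : InfinitePlace K) :
    w ((u : 𝓞 K) : K) ≤ 1 + b * mixedEmbedding.norm x / normAtPlace w x ^ finrank ℚ K := by
  have hw0 : 0 < normAtPlace w x :=
    lt_of_le_of_ne (normAtPlace_nonneg w x) (Ne.symm (mixedEmbedding.norm_ne_zero_iff.1 hx w))
  have h1 := (lt_of_phi_ne_zero h).2 w
  rw [norm_unit_smul, normAtPlace_unit_smul, mul_pow] at h1
  have hpow : 0 < normAtPlace w x ^ finrank ℚ K := pow_pos hw0 _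
  have h2 : w ((u : 𝓞 K) : K) ^ finrank ℚ K
      ≤ b * mixedEmbedding.norm x / normAtPlace w x ^ finrank ℚ K := by
    rw [le_div_iff₀ hpow]; exact h1.le
  have hn : finrank ℚ K ≠ 0 := finrank_pos.ne'
  have h0 : 0 ≤ b * mixedEmbedding.norm x / normAtPlace w x ^ finrank ℚ K :=
    div_nonneg (mul_nonneg hb (mixedEmbedding.norm_nonneg x)) hpow.le
  rcases le_total (w ((u : 𝓞 K) : K)) 1 with h3 | h3
  · linarith
  · have := le_self_pow₀ h3 hn
    linarith

theorem finite_phi_support {b : ℝ} (hb : 0 ≤ b) {x : mixedSpace K}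
    (hx : mixedEmbedding.norm x ≠ 0) : {u : (𝓞 K)ˣ | phi K b (u • x) ≠ 0}.Finite := by
  refine (finite_units_le K (∑ w : InfinitePlace K,
    (1 + b * mixedEmbedding.norm x / normAtPlace w x ^ finrank ℚ K))).subset fun u hu w => ?_
  refine (le_of_phi_unit_smul_ne_zero hb hx hu w).trans ?_
  exact Finset.single_le_sum
    (f := fun w => 1 + b * mixedEmbedding.norm x / normAtPlace w x ^ finrank ℚ K)
    (fun v _ => add_nonneg zero_le_one (div_nonneg (mul_nonneg hb (mixedEmbedding.norm_nonneg x))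
      (pow_nonneg (normAtPlace_nonneg v x) _))) (Finset.mem_univ w)

theorem summable_phi_orbit {b : ℝ} (hb : 0 ≤ b) {x : mixedSpace K}
    (hx : mixedEmbedding.norm x ≠ 0) : Summable (fun u : (𝓞 K)ˣ => phi K b (u • x)) :=
  summable_of_hasFiniteSupport (show Set.Finite _ from finite_phi_support hb hx)

/-! ### The orbit sum -/

variable (K) in
/-- The orbit sum `D(x) = ∑_u Φ(u • x)`. -/
noncomputable def dsum (b : ℝ) (x : mixedSpace K) : ℝ := ∑' u : (𝓞 K)ˣ, phi K b (u • x)

theorem dsum_nonneg (b : ℝ) (x : mixedSpace K) : 0 ≤ dsum K b x :=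
  tsum_nonneg fun _ => phi_nonneg _ _

theorem dsum_unit_smul (b : ℝ) (v : (𝓞 K)ˣ) (x : mixedSpace K) :
    dsum K b (v • x) = dsum K b x := by
  unfold dsum
  rw [← Equiv.tsum_eq (Equiv.mulRight v) (fun u => phi K b (u • x))]
  refine tsum_congr fun u => ?_
  rw [Equiv.coe_mulRight, mul_smul]

theorem dsum_smul (b : ℝ) {c : ℝ} (hc : 0 < c) (x : mixedSpace K) :
    dsum K b (c • x) = dsum K b x := by
  unfold dsum
  refine tsum_congr fun u => ?_
  rw [unitSMul_smul, mul_smul_comm, ← unitSMul_smul, phi_smul b hc]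

theorem phi_le_dsum {b : ℝ} (hb : 0 ≤ b) {x : mixedSpace K}
    (hx : mixedEmbedding.norm x ≠ 0) : phi K b x ≤ dsum K b x := by
  have := (summable_phi_orbit hb hx).le_tsum 1 (fun v _ => phi_nonneg _ _)
  rwa [one_smul] at this

variable (K) in
/-- The unit theorem, as a bound on the fundamental cone. -/
theorem exists_cone_bound : ∃ C : ℝ, 0 ≤ C ∧ ∀ y ∈ fundamentalCone K, ∀ w : InfinitePlace K,
    normAtPlace w y ^ finrank ℚ K ≤ C ^ finrank ℚ K * mixedEmbedding.norm y := by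
  obtain ⟨C, hC⟩ := isBounded_iff_forall_norm_le.1 (fundamentalCone.isBounded_normLeOne K)
  refine ⟨max C 0, le_max_right _ _, fun y hy w => ?_⟩
  have hpos : 0 < mixedEmbedding.norm y := fundamentalCone.norm_pos_of_mem hy
  have hn0 : finrank ℚ K ≠ 0 := finrank_pos.ne'
  have hn0' : (finrank ℚ K : ℝ) ≠ 0 := Nat.cast_ne_zero.2 hn0
  set c : ℝ := (mixedEmbedding.norm y) ^ (-(1 / (finrank ℚ K : ℝ))) with hc
  have hcpos : 0 < c := Real.rpow_pos_of_pos hpos _
  have hcn : c ^ finrank ℚ K = (mixedEmbedding.norm y)⁻¹ := by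
    rw [hc, ← Real.rpow_natCast, ← Real.rpow_mul hpos.le]
    have : -(1 / (finrank ℚ K : ℝ)) * (finrank ℚ K : ℝ) = -1 := by field_simp
    rw [this, Real.rpow_neg_one]
  have hmem : c • y ∈ fundamentalCone.normLeOne K := by
    refine ⟨fundamentalCone.smul_mem_of_mem hy hcpos.ne', ?_⟩
    show mixedEmbedding.norm (c • y) ≤ 1
    rw [mixedEmbedding.norm_smul, abs_of_pos hcpos, hcn, inv_mul_cancel₀ hpos.ne']
  have h1 : ‖c • y‖ ≤ max C 0 := (hC _ hmem).trans (le_max_left _ _)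
  have h2 : normAtPlace w (c • y) ≤ max C 0 := (normAtPlace_le_norm K w _).trans h1
  rw [normAtPlace_smul, abs_of_pos hcpos] at h2
  have h3 : (c * normAtPlace w y) ^ finrank ℚ K ≤ (max C 0) ^ finrank ℚ K :=
    pow_le_pow_left₀ (mul_nonneg hcpos.le (normAtPlace_nonneg w y)) h2 _
  rw [mul_pow, hcn, inv_mul_le_iff₀ hpos, mul_comm] at h3
  exact h3

theorem one_le_dsum {C : ℝ} (hC0 : 0 ≤ C)
    (hC : ∀ y ∈ fundamentalCone K, ∀ w : InfinitePlace K,
      normAtPlace w y ^ finrank ℚ K ≤ C ^ finrank ℚ K * mixedEmbedding.norm y)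
    {x : mixedSpace K} (hx : mixedEmbedding.norm x ≠ 0) :
    1 ≤ dsum K (C ^ finrank ℚ K + 1) x := by
  obtain ⟨u, hu⟩ := fundamentalCone.exists_unit_smul_mem hx
  have h1 : phi K (C ^ finrank ℚ K + 1) (u • x) = 1 := by
    refine phi_eq_one ?_ fun w => ?_
    · rw [norm_unit_smul]; exact hx
    · rw [add_sub_cancel_right]; exact hC _ hu w
  have hb : 0 ≤ C ^ finrank ℚ K + 1 := add_nonneg (pow_nonneg hC0 _) zero_le_one
  have := (summable_phi_orbit hb hx).le_tsum u (fun v _ => phi_nonneg _ _)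
  rw [h1] at this
  exact this

/-! ### The weight -/

variable (K) in
/-- The weight `W = Φ / D`. -/
noncomputable def wfun (b : ℝ) (x : mixedSpace K) : ℝ := phi K b x / dsum K b x

/-! ### Lipschitz continuity on the annulus -/

theorem bLipOn_phiT (b : ℝ) (a : InfinitePlace K → ℝ) {c : ℝ} (hc : 0 < c) (R : ℝ) :
    BLipOn {x : mixedSpace K | ‖x‖ ≤ R} (fun x => phiT K b a c x) := by
  unfold phiT
  refine BLipOn.finset_prod _ _ fun w _ => ?_
  refine BLipOn.comp_lipschitz ?_ zero_le_one (ramp_lip b)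
  refine BLipOn.div ?_ ((bLipOn_mixedNorm K R).max_const c) hc (fun x _ => le_max_right _ _)
  exact (BLipOn.const (a w)).mul ((bLipOn_normAtPlace K w R).pow _)

/-- A coordinate cannot be small if the norm is not. -/
theorem mixedNorm_le_normAtPlace_mul {T : ℝ} (hT : 1 ≤ T) {x : mixedSpace K} (hx : ‖x‖ ≤ T)
    (w : InfinitePlace K) :
    mixedEmbedding.norm x ≤ normAtPlace w x / T * (T ^ 2) ^ Fintype.card (InfinitePlace K) := by
  rw [mixedEmbedding.norm_apply]
  have hT0 : 0 < T := by linarith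
  have key : ∀ v : InfinitePlace K, normAtPlace v x ^ mult v
      ≤ (if v = w then normAtPlace w x / T else 1) * T ^ 2 := by
    intro v
    have hv0 := normAtPlace_nonneg v x
    have hvT : normAtPlace v x ≤ T := (normAtPlace_le_norm K v x).trans hx
    by_cases hvw : v = w
    · subst hvw
      rw [if_pos rfl]
      have : normAtPlace v x / T * T ^ 2 = normAtPlace v x * T := by field_simp
      rw [this]
      unfold mult; split_ifs
      · rw [pow_one]; nlinarith
      · nlinarith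
    · rw [if_neg hvw, one_mul]
      unfold mult; split_ifs
      · rw [pow_one]; nlinarith
      · nlinarith
  calc ∏ v, normAtPlace v x ^ mult v
      ≤ ∏ v, (if v = w then normAtPlace w x / T else 1) * T ^ 2 :=
        Finset.prod_le_prod (fun v _ => pow_nonneg (normAtPlace_nonneg v x) _) (fun v _ => key v)
    _ = normAtPlace w x / T * (T ^ 2) ^ Fintype.card (InfinitePlace K) := by
        rw [Finset.prod_mul_distrib, Finset.prod_ite_eq', Finset.prod_const, Finset.card_univ,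
          if_pos (Finset.mem_univ w)]

theorem wfun_lip {C : ℝ} (hC0 : 0 ≤ C)
    (hC : ∀ y ∈ fundamentalCone K, ∀ w : InfinitePlace K,
      normAtPlace w y ^ finrank ℚ K ≤ C ^ finrank ℚ K * mixedEmbedding.norm y) :
    ∃ L : ℝ, 0 ≤ L ∧ ∀ x y : mixedSpace K, 1 / 2 ≤ ‖x‖ → ‖x‖ ≤ 2 → 1 / 2 ≤ ‖y‖ → ‖y‖ ≤ 2 →
      |wfun K (C ^ finrank ℚ K + 1) x - wfun K (C ^ finrank ℚ K + 1) y| ≤ L * ‖x - y‖ := by
  set n := finrank ℚ K with hn
  set b : ℝ := C ^ n + 1 with hb
  have hb1 : 1 ≤ b := by have : 0 ≤ C ^ n := pow_nonneg hC0 _; linarith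
  have hb0 : 0 < b := by linarith
  set c₁ : ℝ := (1 / 2) ^ n / b with hc₁
  have hc₁pos : 0 < c₁ := by positivity
  have hbc : b * c₁ = (1 / 2) ^ n := by rw [hc₁]; field_simp
  set κ : ℝ := ((2 : ℝ) ^ 2) ^ Fintype.card (InfinitePlace K) with hκ
  have hκpos : 0 < κ := by positivity
  set δ : ℝ := c₁ * 2 / κ with hδ
  have hδpos : 0 < δ := by positivity
  have hlow : ∀ x : mixedSpace K, ‖x‖ ≤ 2 → c₁ ≤ mixedEmbedding.norm x →
      ∀ w, δ ≤ normAtPlace w x := by
    intro x hx2 hxc w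
    have := mixedNorm_le_normAtPlace_mul (by norm_num : (1 : ℝ) ≤ 2) hx2 w
    rw [← hκ] at this
    rw [hδ, div_le_iff₀ hκpos]
    linarith
  set M : ℝ := 1 + b * 2 ^ n / δ ^ n with hM
  have hfin := finite_units_le K M
  set U₀ : Finset (𝓞 K)ˣ := hfin.toFinset with hU₀
  have hU : ∀ x : mixedSpace K, ‖x‖ ≤ 2 → c₁ ≤ mixedEmbedding.norm x →
      ∀ u : (𝓞 K)ˣ, u ∉ U₀ → phi K b (u • x) = 0 := by
    intro x hx2 hxc u hu
    by_contra hne
    apply hu
    rw [hU₀, Set.Finite.mem_toFinset]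
    intro w
    have hx0 : mixedEmbedding.norm x ≠ 0 := (hc₁pos.trans_le hxc).ne'
    refine (le_of_phi_unit_smul_ne_zero hb0.le hx0 hne w).trans ?_
    rw [hM]
    have h1 : mixedEmbedding.norm x ≤ 2 ^ n :=
      (mixedNorm_le_norm_pow K x).trans (pow_le_pow_left₀ (norm_nonneg x) hx2 n)
    have h2 : δ ^ n ≤ normAtPlace w x ^ n := pow_le_pow_left₀ hδpos.le (hlow x hx2 hxc w) n
    have h3 : b * mixedEmbedding.norm x / normAtPlace w x ^ n ≤ b * 2 ^ n / δ ^ n :=
      div_le_div₀ (by positivity) (mul_le_mul_of_nonneg_left h1 hb0.le) (by positivity) h2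
    linarith
  set Wt : mixedSpace K → ℝ := fun x =>
    phiT K b (unitVec K 1) c₁ x / max (∑ u ∈ U₀, phiT K b (unitVec K u) c₁ x) 1 with hWt
  have hBL : BLipOn {x : mixedSpace K | ‖x‖ ≤ 2} Wt := by
    refine BLipOn.div (bLipOn_phiT b _ hc₁pos 2)
      (BLipOn.max_const (BLipOn.finset_sum U₀ (fun u x => phiT K b (unitVec K u) c₁ x)
        (fun u _ => bLipOn_phiT b _ hc₁pos 2)) 1) zero_lt_one (fun x _ => le_max_right _ _)
  have heq : ∀ x : mixedSpace K, 1 / 2 ≤ ‖x‖ → ‖x‖ ≤ 2 → wfun K b x = Wt x := by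
    intro x hx1 hx2
    have hpow : (1 / 2 : ℝ) ^ n ≤ ‖x‖ ^ n := pow_le_pow_left₀ (by norm_num) hx1 n
    rcases lt_or_ge (mixedEmbedding.norm x) c₁ with hlt | hge
    · have hphi : phi K b x = 0 := by
        by_contra hne
        have h1 := norm_pow_le_of_phi_ne_zero hne
        have h3 : b * mixedEmbedding.norm x < b * c₁ := mul_lt_mul_of_pos_left hlt hb0
        linarith
      have hT : phiT K b (unitVec K 1) c₁ x = 0 := by
        obtain ⟨w, hw⟩ := exists_normAtPlace_eq_norm K x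
        unfold phiT
        refine Finset.prod_eq_zero (Finset.mem_univ w) (ramp_eq_zero ?_)
        rw [max_eq_right hlt.le, unitVec_one, one_mul, hw, le_div_iff₀ hc₁pos]
        linarith
      rw [hWt]; simp only [wfun, hphi, hT, zero_div]
    · have hx0 : mixedEmbedding.norm x ≠ 0 := (hc₁pos.trans_le hge).ne'
      have hD : dsum K b x = ∑ u ∈ U₀, phiT K b (unitVec K u) c₁ x := by
        unfold dsum
        rw [tsum_eq_sum (s := U₀) (fun u hu => hU x hx2 hge u hu)]
        refine Finset.sum_congr rfl fun u _ => ?_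
        rw [phi_unit_smul b u hx0, phiT_congr_floor b _ hge]
      have hD1 : 1 ≤ dsum K b x := one_le_dsum hC0 hC hx0
      rw [hWt]
      simp only [wfun]
      rw [← hD, max_eq_left hD1, phi_eq_phiT b hx0, phiT_congr_floor b _ hge]
  obtain ⟨L, hL0, hL⟩ := hBL.lipschitz
  refine ⟨L, hL0, fun x y hx1 hx2 hy1 hy2 => ?_⟩
  rw [heq x hx1 hx2, heq y hy1 hy2]
  exact hL x hx2 y hy2

/-! ### Existence -/

variable (K) in
/-- There is a smooth fundamental domain for the action of the units on the mixed space. -/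
theorem exists_isUnitWeight : ∃ W : mixedSpace K → ℝ, IsUnitWeight K W := by
  obtain ⟨C, hC0, hC⟩ := exists_cone_bound K
  have hb1 : 1 ≤ C ^ finrank ℚ K + 1 := by
    have : 0 ≤ C ^ finrank ℚ K := pow_nonneg hC0 _
    linarith
  have hb0 : 0 ≤ C ^ finrank ℚ K + 1 := zero_le_one.trans hb1
  refine ⟨wfun K (C ^ finrank ℚ K + 1), ?_, ?_, ?_, ?_, ?_, ?_, ?_⟩
  · intro x
    exact div_nonneg (phi_nonneg _ _) (dsum_nonneg _ _)
  · intro x
    by_cases hx : mixedEmbedding.norm x = 0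
    · unfold wfun; rw [phi_of_norm_eq_zero _ hx, zero_div]; exact zero_le_one
    · exact div_le_one_of_le₀ (phi_le_dsum hb0 hx) (dsum_nonneg _ _)
  · unfold wfun
    rw [phi_of_norm_eq_zero _ (map_zero _), zero_div]
  · intro c hc x
    unfold wfun
    rw [phi_smul _ hc, dsum_smul _ hc]
  · refine ⟨C ^ finrank ℚ K + 1, hb1, fun x hx => ?_⟩
    refine norm_pow_le_of_phi_ne_zero (b := C ^ finrank ℚ K + 1) fun h0 => hx ?_
    unfold wfun; rw [h0, zero_div]
  · exact wfun_lip hC0 hC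
  · intro x hx
    have hD1 : 1 ≤ dsum K (C ^ finrank ℚ K + 1) x := one_le_dsum hC0 hC hx
    have hD0 : dsum K (C ^ finrank ℚ K + 1) x ≠ 0 := by linarith
    have hs := ((summable_phi_orbit hb0 hx).hasSum).div_const (dsum K (C ^ finrank ℚ K + 1) x)
    have e : (∑' u : (𝓞 K)ˣ, phi K (C ^ finrank ℚ K + 1) (u • x)) /
        dsum K (C ^ finrank ℚ K + 1) x = 1 := div_self hD0
    rw [e] at hs
    have hfun : (fun u : (𝓞 K)ˣ => phi K (C ^ finrank ℚ K + 1) (u • x) /
        dsum K (C ^ finrank ℚ K + 1) x) = fun u => wfun K (C ^ finrank ℚ K + 1) (u • x) := by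
      funext u
      unfold wfun
      rw [dsum_unit_smul]
    rw [hfun] at hs
    exact hs

end Fermat.Agent.Lib.SmoothCount
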